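import Fermat.Agent.BR3.CuspSheet.Inf
import Fermat.Agent.BR3.RegAtlas
import Fermat.Agent.BR.Inst.Inf.NoCrossAtlas
import Fermat.Agent.BR.Inst.CkPointModular
import Fermat.Agent.BR3.CoverK.Chart
import Fermat.Agent.BR3.CoverK.Mono

/-!
# Program C, node (I7-CUSP), part SC2: the regular chart of `cInf` at the cusps of `can`

`H : AtlasHyp (chartDataModular B hB hqM) (jx M q)` (the atlas of `S'`), `Q` a cusp of `can`
(`1/j̃` vanishes at `Q`).

* `integralAt_chartInf_zero` : the places of the tube of a cusp of the component `0` are integral on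
  the chart at infinity; hence `1/j` and the separator `j(s^q)/j^q` are regular on the tube;
* `cuspRing_le_regChartCan` : the coefficient ring of the sheet lies in the ring of the regular
  chart `RegAtlas.regChartCan` at the cusp;
* `coverSheet_cInf_cusp_chart` : the sheet `CuspSheet.coverSheet_cInf_cusp` with the chart ring as
  coefficient ring;
* `cInfChartCusp` : **the regular chart of `cInf` at the cusp** (tube
  `coverTube B {P | H.r P = ⟨0, Q⟩} (thetaInf M q) 1`), parameter and ring by `rfl`.
-/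

set_option autoImplicit false
set_option linter.style.haveILetI false
set_option linter.unusedSectionVars false

noncomputable section

/- S36 build-time patch: file-local shortcut instances. They only shorten instance search;
each is the instance that the search finds anyway (reducible, same terms after unfolding). -/
local instance (priority := 100000) Fermat.Agent.BR3.FastInst.instAlgFullC_CuspSheet_Chart
    {k : Type*} [Field k] (N : ℕ) :
    Algebra k ↥(ModularCurve.modularFunctionFieldFullC k N) := inferInstance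
local instance (priority := 100000) Fermat.Agent.BR3.FastInst.instFieldFullC_CuspSheet_Chart
    {k : Type*} [Field k] (N : ℕ) :
    Field ↥(ModularCurve.modularFunctionFieldFullC k N) := inferInstance
local instance (priority := 100000) Fermat.Agent.BR3.FastInst.instAlgLaurent_CuspSheet_Chart
    {k : Type*} [Field k] : Algebra k (LaurentSeries k) := inferInstance


set_option synthInstance.maxHeartbeats 400000

namespace Fermat.Agent.BR3.CuspSheet

open ModularCurve AlgebraicCurve IsLocalRing Polynomial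
open Fermat.Agent.X0 Fermat.Agent.Val Fermat.Agent.Red Fermat.Agent.BR.Centre
open Fermat.Agent.Hecke.AL Fermat.Agent.BR.TwoVal Fermat.Agent.BR.TwoValInst
open Fermat.Agent.BR.ConstRedTwo Fermat.Agent.BR.ResGen Fermat.Agent.BR.S0
open Fermat.Agent.BR.S0.RedModular Fermat.Agent.BR.S0.RedHyp Fermat.Agent.BR.S0.PointDict
open Fermat.Agent.BR.Inst.SmoothModularAll Fermat.Agent.BR.Inst.CkPointModular
open Fermat.Agent.BR.Inst.Cusp Fermat.Agent.BR.CuspSepVal
open Fermat.Agent.BR3.CoverK Fermat.Agent.BR3.FibreProd Fermat.Agent.BR3.CInfRes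
open Fermat.Agent.BR3.RegAtlas

variable {M q : ℕ} [NeZero M] [hq : Fact q.Prime]

/-! ### Generic: the tube of a point at infinity is read on the chart at infinity -/

section Generic

variable {K F k : Type*} [Field K] [Field F] [Algebra K F] [Field k]
  {Ft : Type*} [Field Ft] [Algebra k Ft] {A : ValuationSubring K} {π : A →+* k}
  {D : ChartData A π Ft F} {x : F}

theorem integralAt_Rinf_of_r_eq_zero (H : AtlasHyp D x) {Q : Place k Ft}
    (hi : IsValueAt Q (D.res 0 ⟨x⁻¹, D.hinf 0 H.inv_mem⟩) 0) {P : Place K F}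
    (hP : H.r P = ⟨0, Q⟩) : IntegralAt A D.Rinf P :=
  ((H.red_iff_inf hi).mp (H.r_eq_zero_iff.mp hP)).integralAt

end Generic

/-! ### The separator -/

theorem jB_eq_jq' : jB M q = jq' M q := by
  haveI : NeZero q := ⟨hq.out.ne_zero⟩
  apply Subtype.ext
  rw [Fermat.Agent.BR.CuspSepInt.coe_jB, coe_jq', Fermat.Agent.Igusa.J_one_unit_eq_jqNModC]

theorem hSep_eq_hSepInf :
    haveI : NeZero q := ⟨hq.out.ne_zero⟩
    hSep M q = hSepInf M q := by
  haveI : NeZero q := ⟨hq.out.ne_zero⟩
  unfold hSep hSepInf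
  rw [jA_eq_jBar, jB_eq_jq']

theorem hSepInf_mem_chartInf : hSepInf M q ∈ chartInf (M := M) (q := q) := by
  haveI : NeZero q := ⟨hq.out.ne_zero⟩
  rw [← hSep_eq_hSepInf]
  exact Fermat.Agent.BR.Inst.Inf.NoCrossAtlas.hSep_mem_chartInf

theorem jx_eq_jBar' : jx M q = jBar (M * q) := by
  haveI : NeZero q := ⟨hq.out.ne_zero⟩
  rw [Fermat.Agent.BR.Inst.Inf.NoCrossAtlas.jx_eq_jA, jA_eq_jBar]

/-! ### The tube of a cusp of `can` -/

variable (B : ValuationSubring Kb) (hB : B.LiesOverPrime q) (hqM : ¬ q ∣ M)

local notation "kB" => IsLocalRing.ResidueField B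
local notation "FtM" => modularFunctionFieldFullC (IsLocalRing.ResidueField B) M

/-- at a cusp the residue of `1/j` on the component `0` vanishes -/
theorem isValueAt_res_zero_jx_inv (H : AtlasHyp (chartDataModular B hB hqM) (jx M q))
    {Q : Place kB FtM} (hQ : Q.adicValuation ((jFullC kB M)⁻¹) < 1) :
    IsValueAt Q ((chartDataModular B hB hqM).res 0
      ⟨(jx M q)⁻¹, (chartDataModular B hB hqM).hinf 0 H.inv_mem⟩) 0 := by
  have e : (chartDataModular B hB hqM).res 0
      ⟨(jx M q)⁻¹, (chartDataModular B hB hqM).hinf 0 H.inv_mem⟩ = (jFullC kB M)⁻¹ :=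
    res_zero_jx_inv B hB hqM _
  rw [IsValueAt, e, map_zero, sub_zero]
  exact hQ

/-- the places of the tube of a cusp of the component `0` are integral on the chart at
infinity -/
theorem integralAt_chartInf_zero (H : AtlasHyp (chartDataModular B hB hqM) (jx M q))
    {Q : Place kB FtM} (hQ : Q.adicValuation ((jFullC kB M)⁻¹) < 1)
    {P : Place Kb (Fb (M * q))} (hP : H.r P = ⟨0, Q⟩) :
    IntegralAt B (chartInf (M := M) (q := q)) P :=
  integralAt_Rinf_of_r_eq_zero H (isValueAt_res_zero_jx_inv B hB hqM H hQ) hP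

theorem ord_nonneg_of_mem_chartInf_zero (H : AtlasHyp (chartDataModular B hB hqM) (jx M q))
    {Q : Place kB FtM} (hQ : Q.adicValuation ((jFullC kB M)⁻¹) < 1)
    {P : Place Kb (Fb (M * q))} (hP : H.r P = ⟨0, Q⟩) {y : Fb (M * q)}
    (hy : y ∈ chartInf (M := M) (q := q)) : 0 ≤ P.ord y := by
  obtain ⟨c, -, hc⟩ := integralAt_chartInf_zero B hB hqM H hQ hP y hy
  rw [← Place.mem_iff_ord_nonneg]
  exact hc.mem

/-- the functions of the chart at infinity lie in the ring of the regular chart at a cusp -/
theorem chartInf_le_regChartCan (H : AtlasHyp (chartDataModular B hB hqM) (jx M q))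
    (Q : Place kB FtM) (hQnc : ∀ e, Q ≠ z₁ (chartDataModular B hB hqM) e)
    (hQ : Q.adicValuation ((jFullC kB M)⁻¹) < 1) {y : Fb (M * q)}
    (hy : y ∈ chartInf (M := M) (q := q)) : y ∈ (regChartCan B hB hqM H Q hQnc).chart.R :=
  (regChartCan B hB hqM H Q hQnc).chart.normal y (chartInf_le B hB hqM 0 hy)
    fun _ hP => ord_nonneg_of_mem_chartInf_zero B hB hqM H hQ hP hy

/-- **the coefficient ring of the sheet lies in the ring of the regular chart at the cusp** -/
theorem cuspRing_le_regChartCan (H : AtlasHyp (chartDataModular B hB hqM) (jx M q))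
    (Q : Place kB FtM) (hQnc : ∀ e, Q ≠ z₁ (chartDataModular B hB hqM) e)
    (hQ : Q.adicValuation ((jFullC kB M)⁻¹) < 1) :
    cuspRing M q ≤ (regChartCan B hB hqM H Q hQnc).chart.R := by
  refine cuspRing_le_chart B hB hqM (regChartCan B hB hqM H Q hQnc) ?_ ?_
  · have h1 : (jx M q)⁻¹ ∈ chartInf (M := M) (q := q) := H.inv_mem
    rw [jx_eq_jBar'] at h1
    exact chartInf_le_regChartCan B hB hqM H Q hQnc hQ h1
  · exact chartInf_le_regChartCan B hB hqM H Q hQnc hQ hSepInf_mem_chartInf

set_option maxHeartbeats 1600000 in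
/-- **the sheet of `cInf` at a cusp, coefficients in the ring of the regular chart** -/
theorem coverSheet_cInf_cusp_chart (H : AtlasHyp (chartDataModular B hB hqM) (jx M q))
    (Q : Place kB FtM) (hQnc : ∀ e, Q ≠ z₁ (chartDataModular B hB hqM) e)
    (hQ : Q.adicValuation ((jFullC kB M)⁻¹) < 1) :
    letI := algebraAlong (alpha2 M q)
    haveI := isScalarTower_along (alpha2 M q)
    CoverSheet B (IsLocalRing.residue B) (constRedW1 B hB hqM).O (constRedW1 B hB hqM).res Q
      (constRedCInf B hB hqM).O (constRedCInf B hB hqM).res Q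
      (regChartCan B hB hqM H Q hQnc).chart.R (thetaInf M q)
      (psiInf M q) (X - C 1) (psiInf M q /ₘ (X - C 1)) 1 := by
  letI := algebraAlong (alpha2 M q)
  haveI := isScalarTower_along (alpha2 M q)
  exact (coverSheet_cInf_cusp B hB hqM Q hQ).of_le_chart (regChartCan B hB hqM H Q hQnc)
    (cuspRing_le_regChartCan B hB hqM H Q hQnc hQ)

/-- the cover `α₂` is finite -/
theorem finite_alpha2 :
    letI := algebraAlong (alpha2 M q)
    Module.Finite (Fb (M * q)) (Fb (M * q * q)) :=
  Fermat.Agent.Hecke.finiteAlong_heckeAlphaBar (M * q) q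

set_option maxHeartbeats 1600000 in
/-- **(SC2) The regular chart of `cInf` at a cusp `Q` of `can`**: the lift of the regular chart
`regChartCan` of `S'` along the sheet `θ∞ ≡ 1`. -/
def cInfChartCusp (H : AtlasHyp (chartDataModular B hB hqM) (jx M q))
    (Q : Place kB FtM) (hQnc : ∀ e, Q ≠ z₁ (chartDataModular B hB hqM) e)
    (hQ : Q.adicValuation ((jFullC kB M)⁻¹) < 1)
    (harch : ∀ a c : Kb, B.valuation a < 1 → c ≠ 0 → ∃ N : ℕ, B.valuation a ^ N ≤ B.valuation c) :
    letI := algebraAlong (alpha2 M q)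
    haveI : Module.Finite (Fb (M * q)) (Fb (M * q * q)) := finite_alpha2
    RegChart B (constRedCInf B hB hqM).O (constRedCInf B hB hqM).res Q
      (coverTube B {P | H.r P = ⟨0, Q⟩} (thetaInf M q) (1 : B)) :=
  letI := algebraAlong (alpha2 M q)
  haveI := isScalarTower_along (alpha2 M q)
  haveI : Module.Finite (Fb (M * q)) (Fb (M * q * q)) := finite_alpha2
  haveI : Algebra.IsSeparable (Fb (M * q)) (Fb (M * q * q)) :=
    Algebra.IsAlgebraic.isSeparable_of_perfectField
  coverRegChartOfConstRed (constRedW1 B hB hqM) (regChartCan B hB hqM H Q hQnc)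
    (coverSheet_cInf_cusp_chart B hB hqM H Q hQnc hQ) harch

set_option maxHeartbeats 1600000 in
/-- the parameter of the chart of `cInf` at a cusp is the parameter of the chart of `can` -/
theorem cInfChartCusp_t (H : AtlasHyp (chartDataModular B hB hqM) (jx M q))
    (Q : Place kB FtM) (hQnc : ∀ e, Q ≠ z₁ (chartDataModular B hB hqM) e)
    (hQ : Q.adicValuation ((jFullC kB M)⁻¹) < 1)
    (harch : ∀ a c : Kb, B.valuation a < 1 → c ≠ 0 → ∃ N : ℕ, B.valuation a ^ N ≤ B.valuation c) :
    (cInfChartCusp B hB hqM H Q hQnc hQ harch).chart.t =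
      alpha2 M q (regChartCan B hB hqM H Q hQnc).chart.t := rfl

set_option maxHeartbeats 1600000 in
/-- the ring of the chart of `cInf` at a cusp -/
theorem cInfChartCusp_R (H : AtlasHyp (chartDataModular B hB hqM) (jx M q))
    (Q : Place kB FtM) (hQnc : ∀ e, Q ≠ z₁ (chartDataModular B hB hqM) e)
    (hQ : Q.adicValuation ((jFullC kB M)⁻¹) < 1)
    (harch : ∀ a c : Kb, B.valuation a < 1 → c ≠ 0 → ∃ N : ℕ, B.valuation a ^ N ≤ B.valuation c) :
    letI := algebraAlong (alpha2 M q)
    (cInfChartCusp B hB hqM H Q hQnc hQ harch).chart.R =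
      CoverDiv.coverRing (regChartCan B hB hqM H Q hQnc).chart.R (thetaInf M q)
        (constRedCInf B hB hqM).O (constRedCInf B hB hqM).res Q := rfl

end Fermat.Agent.BR3.CuspSheet
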