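import Fermat.Agent.BR3.CuspSheet.Poly
import Fermat.Agent.BR3.CInfRes
import Fermat.Agent.BR3.CoverK.OfLift
import Fermat.Agent.Val.SeparableModL

/-!
# Program C, node (I7-CUSP), part SC2: the cover sheet of `cInf` at the cusps of `can`

`F₁ = Fb (M * q)`, `F₂ = Fb (M * q * q)`, `α₂ : F₁ → F₂`; `can = (O1, constRedW1.res)`,
`cInf = (w₁, resInf)`, both with residue field `F̃_M`.  Generator `θ∞ = thetaInf M q`
(`= j(s^{q²}) / α₂ j(s^q)^q`), minimal polynomial `psiInf M q`, coefficient ring `cuspRing M q`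
(`BR3/CuspSheet/Poly.lean`).

* `thetaInf_mem_w1`, `resInf_thetaInf` : `θ∞ ∈ w₁` with residue `1`;
* `cuspRing_le_O1` : the coefficient ring lies in `O1`;
* `coverSheet_cInf_cusp` : **the cover sheet at a cusp `Q`** (`1/j̃` vanishes at `Q`), with
  `ψ = X - 1`, `u = 1`;
* `cuspRing_le_chart` : `cuspRing ≤ C.chart.R` for every regular chart `C` of `can` whose ring
  contains `1/j` and the separator `j(s^q)/j^q` (the latter is then a unit of the local ring).
-/

set_option autoImplicit false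
set_option linter.style.haveILetI false
set_option linter.unusedSectionVars false

noncomputable section

/- S36 build-time patch: file-local shortcut instances. They only shorten instance search;
each is the instance that the search finds anyway (reducible, same terms after unfolding). -/
local instance (priority := 100000) Fermat.Agent.BR3.FastInst.instAlgFullC_CuspSheet_Inf
    {k : Type*} [Field k] (N : ℕ) :
    Algebra k ↥(ModularCurve.modularFunctionFieldFullC k N) := inferInstance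
local instance (priority := 100000) Fermat.Agent.BR3.FastInst.instFieldFullC_CuspSheet_Inf
    {k : Type*} [Field k] (N : ℕ) :
    Field ↥(ModularCurve.modularFunctionFieldFullC k N) := inferInstance
local instance (priority := 100000) Fermat.Agent.BR3.FastInst.instAlgLaurent_CuspSheet_Inf
    {k : Type*} [Field k] : Algebra k (LaurentSeries k) := inferInstance


set_option synthInstance.maxHeartbeats 400000

namespace Fermat.Agent.BR3.CuspSheet

open ModularCurve AlgebraicCurve Polynomial Fermat.Agent.X0 Fermat.Agent.Val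
open Fermat.Agent.Hecke.AL Fermat.Agent.Igusa Fermat.Agent.BR.Kron Fermat.Agent.Red
open Fermat.Agent.BR.TwoVal Fermat.Agent.BR.ResGen Fermat.Agent.BR.TwoValInst
open Fermat.Agent.BR.ConstRedTwo Fermat.Agent.BR.Centre Fermat.Agent.BR.S0
open Fermat.Agent.BR3.FibreProd Fermat.Agent.BR3.GaussContractSub Fermat.Agent.BR3.CInfRes
open Fermat.Agent.BR3.CoverK Fermat.Agent.BR3.CoverK.OfLift

variable {M q : ℕ} [NeZero M] [hq : Fact q.Prime]
variable (B : ValuationSubring (AlgebraicClosure ℚ)) (hB : B.LiesOverPrime q) (hqM : ¬ q ∣ M)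

local notation "kB" => IsLocalRing.ResidueField B
local notation "FtM" => modularFunctionFieldFullC (IsLocalRing.ResidueField B) M

/-! ### Residues of inverses -/

/-- the residue of an inverse -/
theorem res_inv_eq {F L : Type*} [Field F] [Field L] (O : ValuationSubring F) (f : O →+* L)
    {x : F} (hx0 : x ≠ 0) (hx : x ∈ O) (hx' : x⁻¹ ∈ O) : f ⟨x⁻¹, hx'⟩ = (f ⟨x, hx⟩)⁻¹ := by
  have h1 : (⟨x, hx⟩ : O) * ⟨x⁻¹, hx'⟩ = 1 := Subtype.ext (mul_inv_cancel₀ hx0)
  have h2 : f ⟨x, hx⟩ * f ⟨x⁻¹, hx'⟩ = 1 := by rw [← map_mul, h1, map_one]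
  exact eq_inv_of_mul_eq_one_right h2

theorem jqModC_ne_zero'' : jqModC kB ≠ 0 := jqModC_ne_zero_of_nontrivial kB

/-! ### `1 / j(s^q)` and `c⁻¹` in `O1` -/

theorem inv_jq'_mem_O1 : (jq' M q)⁻¹ ∈ O1 M B hB := by
  apply inv_mem_of_notMem_nonunits (O1 M B hB)
  rw [mem_nonunits_O1_iff B hB (jq'_mem_O1 B hB), res1_jq']
  exact pow_ne_zero _ (jqModC_ne_zero'' B)

theorem res1_inv_jq' :
    res1 M B hB ⟨(jq' M q)⁻¹, inv_jq'_mem_O1 B hB⟩ = ((jqModC kB) ^ q)⁻¹ := by
  rw [res_inv_eq (O1 M B hB) (res1 M B hB) jq'_ne_zero (jq'_mem_O1 B hB), res1_jq']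

theorem cInv_mem_O1 : cInv M q ∈ O1 M B hB := (O1 M B hB).toSubring.pow_mem (inv_jq'_mem_O1 B hB) q

theorem res1_cInv :
    res1 M B hB ⟨cInv M q, cInv_mem_O1 B hB⟩ = (((jqModC kB) ^ q)⁻¹) ^ q := by
  have e : (⟨cInv M q, cInv_mem_O1 B hB⟩ : O1 M B hB) = ⟨(jq' M q)⁻¹, inv_jq'_mem_O1 B hB⟩ ^ q :=
    Subtype.ext rfl
  rw [e, map_pow, res1_inv_jq']

/-! ### The coefficient ring lies in `O1` -/

theorem adjoin_le_O1 {y : Fb (M * q)} (hy : y ∈ Algebra.adjoin ℤ {(jq' M q)⁻¹}) :
    y ∈ O1 M B hB := by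
  induction hy using Algebra.adjoin_induction with
  | mem s hs =>
    rw [Set.mem_singleton_iff.mp hs]
    exact inv_jq'_mem_O1 B hB
  | algebraMap c =>
    rw [eq_intCast]
    exact intCast_mem (O1 M B hB) c
  | add a b _ _ ha hb => exact (O1 M B hB).add_mem _ _ ha hb
  | mul a b _ _ ha hb => exact (O1 M B hB).mul_mem _ _ ha hb

/-- the elements integral over a subalgebra contained in a valuation subring lie in it -/
theorem mem_of_isIntegral_of_le {F : Type*} [Field F] (O : ValuationSubring F)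
    {R : Subalgebra ℤ F} (hR : ∀ r ∈ R, r ∈ O) {d : F} (hd : IsIntegral R d) : d ∈ O := by
  have hle : R.toSubring ≤ O.toSubring := fun r hr => hR r hr
  have h1 : IsIntegral O d := by
    obtain ⟨p, hp, hpd⟩ := hd
    refine ⟨p.map (Subring.inclusion hle), hp.map _, ?_⟩
    rw [Polynomial.eval₂_map]
    exact hpd
  obtain ⟨z, hz⟩ := (IsIntegrallyClosed.isIntegral_iff (R := O) (K := F)).mp h1
  rw [← hz]
  exact z.2

theorem cuspRing_le_O1 : ∀ y ∈ cuspRing M q, y ∈ O1 M B hB := fun _ hy =>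
  mem_of_isIntegral_of_le (O1 M B hB) (fun _ hr => adjoin_le_O1 B hB hr) hy

/-! ### The residue of `θ∞` on `cInf` -/

theorem thetaInf_mem_w1 : thetaInf M q ∈ w1 M B hB :=
  (w1 M B hB).mul_mem _ _ (jqq_mem_w1 B hB) ((alpha2_mem_w1_iff B hB _).2 (cInv_mem_O1 B hB))

theorem resw1_thetaInf : resw1 M B hB ⟨thetaInf M q, thetaInf_mem_w1 B hB⟩ = 1 := by
  have e : (⟨thetaInf M q, thetaInf_mem_w1 B hB⟩ : w1 M B hB) =
      ⟨jqq M q, jqq_mem_w1 B hB⟩ *
        ⟨alpha2 M q (cInv M q), (alpha2_mem_w1_iff B hB _).2 (cInv_mem_O1 B hB)⟩ :=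
    Subtype.ext rfl
  rw [e, map_mul, resw1_jqq, resw1_alpha2 B hB _ (cInv_mem_O1 B hB), res1_cInv, ← inv_pow,
    ← pow_mul, ← mul_pow, mul_inv_cancel₀ (jqModC_ne_zero'' B), one_pow]

theorem resInf_thetaInf : resInf B hB hqM ⟨thetaInf M q, thetaInf_mem_w1 B hB⟩ = 1 := by
  apply Subtype.ext
  rw [coe_resInf, resw1_thetaInf]
  rfl

/-! ### Residues on `can` in `F̃_M` -/

/-- the residue map of `can`, with domain `O1` -/
abbrev resCan : O1 M B hB →+* FtM := (constRedW1 B hB hqM).res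

theorem coe_resCan (x : O1 M B hB) :
    ((resCan B hB hqM x : FtM) : LaurentSeries kB) = res1 M B hB x := rfl

theorem natCast_mem_O1 (n : ℕ) : ((n : ℕ) : Fb (M * q)) ∈ O1 M B hB := natCast_mem (O1 M B hB) n

/-- the residue of the prime `q` on `can` vanishes -/
theorem res_natCast_q : resCan B hB hqM ⟨((q : ℕ) : Fb (M * q)), natCast_mem_O1 B hB q⟩ = 0 := by
  haveI := charP_kB B hB
  have e : (⟨((q : ℕ) : Fb (M * q)), natCast_mem_O1 B hB q⟩ : O1 M B hB) =
      ((q : ℕ) : O1 M B hB) := Subtype.ext (by push_cast; rfl)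
  rw [e, map_natCast, ← map_natCast (algebraMap kB FtM) q, CharP.cast_eq_zero, map_zero]

theorem res_jBar : resCan B hB hqM ⟨jBar (M * q), jBar_mem_O1 B hB⟩ = jFullC kB M := by
  apply Subtype.ext
  rw [coe_resCan, res1_jBar]
  rfl

theorem res_jq' : resCan B hB hqM ⟨jq' M q, jq'_mem_O1 B hB⟩ = jFullC kB M ^ q := by
  apply Subtype.ext
  rw [coe_resCan, res1_jq']
  rfl

theorem jFullC_ne_zero' : jFullC kB M ≠ 0 := by
  intro h
  have h1 := congrArg (Subtype.val) h
  exact jqModC_ne_zero'' B h1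

theorem res_cInv :
    resCan B hB hqM ⟨cInv M q, cInv_mem_O1 B hB⟩ = (((jFullC kB M) ^ q)⁻¹) ^ q := by
  have e : (⟨cInv M q, cInv_mem_O1 B hB⟩ : O1 M B hB) = ⟨(jq' M q)⁻¹, inv_jq'_mem_O1 B hB⟩ ^ q :=
    Subtype.ext rfl
  rw [e, map_pow, res_inv_eq (O1 M B hB) (resCan B hB hqM) jq'_ne_zero (jq'_mem_O1 B hB), res_jq']

theorem a1_mem_O1 : a1 M q ∈ O1 M B hB :=
  (O1 M B hB).mul_mem _ _ (jBar_mem_O1 B hB) (cInv_mem_O1 B hB)

/-- a field identity: `x (x^q)^{-q} = (1/x)^{q² - 1}` -/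
theorem mul_inv_pow_pow {L : Type*} [Field L] {x : L} (hx : x ≠ 0) :
    x * ((x ^ q)⁻¹) ^ q = (x⁻¹) ^ (q * q - 1) := by
  have hqq : 1 ≤ q * q := Nat.mul_pos hq.out.pos hq.out.pos
  obtain ⟨n, hn⟩ := Nat.exists_eq_add_of_le hqq
  rw [hn, Nat.add_sub_cancel_left, ← inv_pow, ← pow_mul, hn, pow_add, pow_one, ← mul_assoc,
    mul_inv_cancel₀ hx, one_mul]

theorem res_a1 : resCan B hB hqM ⟨a1 M q, a1_mem_O1 B hB⟩ = ((jFullC kB M)⁻¹) ^ (q * q - 1) := by
  have e : (⟨a1 M q, a1_mem_O1 B hB⟩ : O1 M B hB) =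
      ⟨jBar (M * q), jBar_mem_O1 B hB⟩ * ⟨cInv M q, cInv_mem_O1 B hB⟩ := Subtype.ext rfl
  rw [e, map_mul, res_jBar, res_cInv, mul_inv_pow_pow (jFullC_ne_zero' B)]

variable (M q) in
/-- `d = j(s^q)^{1 - q²}` -/
def dInf : Fb (M * q) := jq' M q * cInv M q ^ q

theorem dInf_mem_O1 : dInf M q ∈ O1 M B hB :=
  (O1 M B hB).mul_mem _ _ (jq'_mem_O1 B hB) ((O1 M B hB).toSubring.pow_mem (cInv_mem_O1 B hB) q)

theorem res_dInf : resCan B hB hqM ⟨dInf M q, dInf_mem_O1 B hB⟩ = (((jFullC kB M)⁻¹) ^ (q * q - 1)) ^ q := by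
  have e : (⟨dInf M q, dInf_mem_O1 B hB⟩ : O1 M B hB) =
      ⟨jq' M q, jq'_mem_O1 B hB⟩ * ⟨cInv M q, cInv_mem_O1 B hB⟩ ^ q := Subtype.ext rfl
  rw [e, map_mul, map_pow, res_jq', res_cInv, ← mul_inv_pow_pow (jFullC_ne_zero' B), mul_pow]

/-! ### Kronecker: the residue of `g1'(1)` -/

theorem g1_isSubPoly_O1 : IsSubPoly (O1 M B hB).toSubring (g1 M q) := fun i =>
  adjoin_le_O1 B hB (g1_coeff_mem i)

variable (M q) in
/-- the error term of Kronecker's congruence at `X = 1` -/
def eInf : Fb (M * q) := cInv M q ^ q * (derivative (PsiAt M q)).eval ((jq' M q) ^ q)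

theorem eInf_mem_O1 : eInf M q ∈ O1 M B hB := by
  refine (O1 M B hB).mul_mem _ _ ((O1 M B hB).toSubring.pow_mem (cInv_mem_O1 B hB) q) ?_
  exact IsSubPoly.eval_mem (S := (O1 M B hB).toSubring)
    (IsSubPoly.derivative' (PsiAt_isSubPoly _ (jq'_mem_O1 B hB)))
    ((O1 M B hB).toSubring.pow_mem (jq'_mem_O1 B hB) q)

theorem derivative_g1_eval_one_mem : (derivative (g1 M q)).eval 1 ∈ O1 M B hB :=
  IsSubPoly.eval_mem (S := (O1 M B hB).toSubring) (IsSubPoly.derivative' (g1_isSubPoly_O1 B hB))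
    (O1 M B hB).one_mem

/-- **the residue of `g1'(1)` is `1 - ā₁^q`** -/
theorem res_derivative_g1_eval_one :
    resCan B hB hqM ⟨(derivative (g1 M q)).eval 1, derivative_g1_eval_one_mem B hB⟩ =
      1 - (((jFullC kB M)⁻¹) ^ (q * q - 1)) ^ q := by
  have e : (⟨(derivative (g1 M q)).eval 1, derivative_g1_eval_one_mem B hB⟩ : O1 M B hB) =
      1 - ⟨dInf M q, dInf_mem_O1 B hB⟩ +
        ⟨((q : ℕ) : Fb (M * q)), natCast_mem_O1 B hB q⟩ * ⟨eInf M q, eInf_mem_O1 B hB⟩ :=
    Subtype.ext derivative_g1_eval_one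
  rw [e, map_add, map_sub, map_one, map_mul, res_natCast_q, zero_mul, add_zero, res_dInf]

/-! ### The cover sheet -/

section Sheet

/-- at a cusp `1 - ā₁` and `1 - ā₁^q` are units -/
theorem adicValuation_one_sub_pow {Q : Place kB FtM}
    (hQ : Q.adicValuation ((jFullC kB M)⁻¹) < 1) {n : ℕ} (hn : n ≠ 0) :
    Q.adicValuation (1 - ((jFullC kB M)⁻¹) ^ n) = 1 := by
  apply Valuation.map_one_sub_of_lt
  rw [map_pow]
  exact pow_lt_one₀ zero_le hQ hn

theorem algebraMap_eq_alpha2 (x : Fb (M * q)) :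
    letI := algebraAlong (alpha2 M q)
    algebraMap (Fb (M * q)) (Fb (M * q * q)) x = alpha2 M q x := rfl

include hqM in
/-- `g1'(θ∞) = (θ∞ - a₁) Ψ'(θ∞)` -/
theorem aeval_derivative_g1 :
    letI := algebraAlong (alpha2 M q)
    aeval (thetaInf M q) (derivative (g1 M q)) =
      (thetaInf M q - alpha2 M q (a1 M q)) * aeval (thetaInf M q) (derivative (psiInf M q)) := by
  letI := algebraAlong (alpha2 M q)
  have hder : derivative (g1 M q) =
      psiInf M q + (X - C (a1 M q)) * derivative (psiInf M q) := by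
    rw [← X_sub_C_mul_psiInf, derivative_mul, derivative_sub, derivative_X, derivative_C, sub_zero,
      one_mul]
  rw [hder, map_add, map_mul, map_sub, aeval_X, aeval_C, aeval_thetaInf_psiInf hqM, zero_add,
    algebraMap_eq_alpha2]

theorem alpha2_mem_w1 {x : Fb (M * q)} (hx : x ∈ O1 M B hB) : alpha2 M q x ∈ w1 M B hB :=
  (alpha2_mem_w1_iff B hB x).2 hx

/-- the value at an element of `w₁` of a polynomial with coefficients in `O1` lies in `w₁` -/
theorem aeval_mem_w1 {x : Fb (M * q * q)} (hx : x ∈ w1 M B hB) {p : (Fb (M * q))[X]}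
    (hp : ∀ n, p.coeff n ∈ O1 M B hB) :
    letI := algebraAlong (alpha2 M q)
    aeval x p ∈ w1 M B hB := by
  letI := algebraAlong (alpha2 M q)
  exact aeval_mem_of_coeff_mem (O' := O1 M B hB) (O'' := w1 M B hB)
    (fun y hy => alpha2_mem_w1 B hB hy) hx hp

/-- congruent arguments have congruent values -/
theorem resInf_aeval_congr {x y : Fb (M * q * q)} (hx : x ∈ w1 M B hB) (hy : y ∈ w1 M B hB)
    (hxy : resInf B hB hqM ⟨x, hx⟩ = resInf B hB hqM ⟨y, hy⟩) {p : (Fb (M * q))[X]}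
    (hp : ∀ n, p.coeff n ∈ O1 M B hB) :
    letI := algebraAlong (alpha2 M q)
    resInf B hB hqM ⟨aeval x p, aeval_mem_w1 B hB hx hp⟩ =
      resInf B hB hqM ⟨aeval y p, aeval_mem_w1 B hB hy hp⟩ := by
  letI := algebraAlong (alpha2 M q)
  exact res_aeval_congr (O' := O1 M B hB) (O'' := w1 M B hB) (res'' := resInf B hB hqM)
    (fun y hy => alpha2_mem_w1 B hB hy) hx hy hxy hp

theorem derivative_g1_coeff_mem : ∀ n, (derivative (g1 M q)).coeff n ∈ O1 M B hB :=
  IsSubPoly.derivative' (g1_isSubPoly_O1 B hB)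

theorem one_mem_w1 : (1 : Fb (M * q * q)) ∈ w1 M B hB := (w1 M B hB).one_mem

/-- the residue of `g1'(1)` upstairs -/
theorem resInf_aeval_one :
    letI := algebraAlong (alpha2 M q)
    resInf B hB hqM ⟨aeval (1 : Fb (M * q * q)) (derivative (g1 M q)),
        aeval_mem_w1 B hB (one_mem_w1 B hB) (derivative_g1_coeff_mem B hB)⟩ =
      1 - (((jFullC kB M)⁻¹) ^ (q * q - 1)) ^ q := by
  letI := algebraAlong (alpha2 M q)
  have h4 : aeval (1 : Fb (M * q * q)) (derivative (g1 M q)) =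
      alpha2 M q ((derivative (g1 M q)).eval 1) := by
    have h := aeval_algebraMap_apply_eq_algebraMap_eval (R := Fb (M * q)) (A := Fb (M * q * q))
      (1 : Fb (M * q)) (derivative (g1 M q))
    rw [map_one] at h
    exact h
  have h5 : (⟨aeval (1 : Fb (M * q * q)) (derivative (g1 M q)),
      aeval_mem_w1 B hB (one_mem_w1 B hB) (derivative_g1_coeff_mem B hB)⟩ : w1 M B hB) =
      ⟨alpha2 M q ((derivative (g1 M q)).eval 1),
        alpha2_mem_w1 B hB (derivative_g1_eval_one_mem B hB)⟩ := Subtype.ext h4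
  rw [h5, resInf_alpha2 B hB hqM _ (derivative_g1_eval_one_mem B hB)]
  exact res_derivative_g1_eval_one B hB hqM

/-- the residue of `g1'(θ∞)` upstairs -/
theorem resInf_aeval_thetaInf
    (h : letI := algebraAlong (alpha2 M q)
      aeval (thetaInf M q) (derivative (psiInf M q)) ∈ w1 M B hB) :
    letI := algebraAlong (alpha2 M q)
    resInf B hB hqM ⟨aeval (thetaInf M q) (derivative (g1 M q)),
        aeval_mem_w1 B hB (thetaInf_mem_w1 B hB) (derivative_g1_coeff_mem B hB)⟩ =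
      (1 - ((jFullC kB M)⁻¹) ^ (q * q - 1)) *
        resInf B hB hqM ⟨aeval (thetaInf M q) (derivative (psiInf M q)), h⟩ := by
  letI := algebraAlong (alpha2 M q)
  have h6 : (⟨aeval (thetaInf M q) (derivative (g1 M q)),
      aeval_mem_w1 B hB (thetaInf_mem_w1 B hB) (derivative_g1_coeff_mem B hB)⟩ : w1 M B hB) =
      (⟨thetaInf M q, thetaInf_mem_w1 B hB⟩ -
        ⟨alpha2 M q (a1 M q), alpha2_mem_w1 B hB (a1_mem_O1 B hB)⟩) *
        ⟨aeval (thetaInf M q) (derivative (psiInf M q)), h⟩ :=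
    Subtype.ext (aeval_derivative_g1 hqM)
  have h7 : resInf B hB hqM ⟨alpha2 M q (a1 M q), alpha2_mem_w1 B hB (a1_mem_O1 B hB)⟩ =
      ((jFullC kB M)⁻¹) ^ (q * q - 1) := by
    rw [resInf_alpha2 B hB hqM _ (a1_mem_O1 B hB)]
    exact res_a1 B hB hqM
  rw [h6, map_mul, map_sub, resInf_thetaInf, h7]

/-- **`simple`**: the residue of `Ψ'(θ∞)` does not vanish at a cusp. -/
theorem simple_thetaInf {Q : Place kB FtM} (hQ : Q.adicValuation ((jFullC kB M)⁻¹) < 1) :
    letI := algebraAlong (alpha2 M q)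
    ∀ h : aeval (thetaInf M q) (derivative (psiInf M q)) ∈ w1 M B hB,
      ¬ Q.adicValuation
        (resInf B hB hqM ⟨aeval (thetaInf M q) (derivative (psiInf M q)), h⟩) < 1 := by
  letI := algebraAlong (alpha2 M q)
  intro h hlt
  have hqq : q * q - 1 ≠ 0 := by
    have h2 : 2 ≤ q := hq.out.two_le
    have : 4 ≤ q * q := by nlinarith
    omega
  have hcong : resInf B hB hqM ⟨thetaInf M q, thetaInf_mem_w1 B hB⟩ =
      resInf B hB hqM ⟨1, one_mem_w1 B hB⟩ := by
    rw [resInf_thetaInf]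
    exact (map_one (resInf B hB hqM)).symm
  have key := resInf_aeval_congr B hB hqM (thetaInf_mem_w1 B hB) (one_mem_w1 B hB) hcong
    (derivative_g1_coeff_mem B hB)
  rw [resInf_aeval_thetaInf B hB hqM h, resInf_aeval_one B hB hqM] at key
  have hv := congrArg Q.adicValuation key
  rw [map_mul, adicValuation_one_sub_pow B hQ hqq, one_mul, ← pow_mul,
    adicValuation_one_sub_pow B hQ (Nat.mul_ne_zero hqq hq.out.ne_zero)] at hv
  rw [hv] at hlt
  exact lt_irrefl _ hlt

set_option maxHeartbeats 1600000 in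
/-- **(SC2) The cover sheet of `cInf` over `can` at a cusp `Q`** (`1/j̃` vanishes at `Q`):
generator `θ∞`, `ψ = X - 1`, `u = 1`. -/
theorem coverSheet_cInf_cusp (Q : Place kB FtM)
    (hQ : Q.adicValuation ((jFullC kB M)⁻¹) < 1) :
    letI := algebraAlong (alpha2 M q)
    haveI := isScalarTower_along (alpha2 M q)
    CoverSheet B (IsLocalRing.residue B) (constRedW1 B hB hqM).O (constRedW1 B hB hqM).res Q
      (constRedCInf B hB hqM).O (constRedCInf B hB hqM).res Q (cuspRing M q) (thetaInf M q)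
      (psiInf M q) (X - C 1) (psiInf M q /ₘ (X - C 1)) 1 := by
  letI := algebraAlong (alpha2 M q)
  haveI := isScalarTower_along (alpha2 M q)
  refine coverSheet_of_lift (O' := (constRedW1 B hB hqM).O) (res' := (constRedW1 B hB hqM).res)
    (O'' := (constRedCInf B hB hqM).O) (res'' := (constRedCInf B hB hqM).res)
    (comap_alpha2_w1 B hB) (fun y hy hy' => resInf_alpha2 B hB hqM y hy)
    (resInf_eq_zero_iff_mem_nonunits B hB hqM) (fun f => rfl) (thetaInf_mem_w1 B hB)
    psiInf_monic (psiInf_irreducible hqM) psiInf_coeff_mem (aeval_thetaInf_psiInf hqM)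
    (exists_aeval_thetaInf_eq hqM) ?_ (simple_thetaInf B hB hqM hQ) (cuspRing_le_O1 B hB)
    (cuspRing M q).one_mem ?_
  · -- `value`
    have h1 : (constRedCInf B hB hqM).res ⟨thetaInf M q, thetaInf_mem_w1 B hB⟩ = 1 :=
      resInf_thetaInf B hB hqM
    rw [h1, map_one]
    exact isValueAt_one Q
  · -- the lift `c = 1`
    have h1 : (constRedCInf B hB hqM).res ⟨thetaInf M q, thetaInf_mem_w1 B hB⟩ = 1 :=
      resInf_thetaInf B hB hqM
    rw [h1]
    have h2 : (⟨1, cuspRing_le_O1 B hB 1 (cuspRing M q).one_mem⟩ : (constRedW1 B hB hqM).O) = 1 :=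
      rfl
    rw [h2, map_one, map_one]

end Sheet

/-! ### The coefficient ring lies in the chart ring at a cusp -/

section Chart

/-- integrality over a subalgebra contained in a subring -/
theorem isIntegral_subring_of_le {F : Type*} [Field F] {R : Subalgebra ℤ F} {S : Subring F}
    (hR : ∀ r ∈ R, r ∈ S) {d : F} (hd : IsIntegral R d) : IsIntegral S d := by
  have hle : R.toSubring ≤ S := fun r hr => hR r hr
  obtain ⟨p, hp, hpd⟩ := hd
  refine ⟨p.map (Subring.inclusion hle), hp.map _, ?_⟩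
  rw [Polynomial.eval₂_map]
  exact hpd

/-- the elements integral over a subring of a valuation subring lie in it -/
theorem mem_of_isIntegral_subring {F : Type*} [Field F] (O : ValuationSubring F)
    {S : Subring F} (hS : ∀ r ∈ S, r ∈ O) {d : F} (hd : IsIntegral S d) : d ∈ O := by
  have hle : S ≤ O.toSubring := fun r hr => hS r hr
  have h1 : IsIntegral O d := by
    obtain ⟨p, hp, hpd⟩ := hd
    refine ⟨p.map (Subring.inclusion hle), hp.map _, ?_⟩
    rw [Polynomial.eval₂_map]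
    exact hpd
  obtain ⟨z, hz⟩ := (IsIntegrallyClosed.isIntegral_iff (R := O) (K := F)).mp h1
  rw [← hz]
  exact z.2

/-- **the ring of a regular chart is integrally closed** -/
theorem RegChart.mem_of_isIntegral {K k : Type*} [Field K] [Field k] {F' : Type*} [Field F']
    [Algebra K F'] {Ft' : Type*} [Field Ft'] [Algebra k Ft'] {A : ValuationSubring K}
    {O : ValuationSubring F'} {res : O →+* Ft'} {Q : Place k Ft'} {T : Set (Place K F')}
    (C : RegChart A O res Q T) {y : F'} (hy : IsIntegral C.chart.R y) : y ∈ C.chart.R := by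
  refine C.chart.normal y (mem_of_isIntegral_subring O C.chart.le hy) fun P hP => ?_
  rw [← Place.mem_iff_ord_nonneg]
  refine mem_of_isIntegral_subring P.toValuationSubring (fun r hr => ?_) hy
  obtain ⟨c, -, hc⟩ := (C.centred P hP).1 r hr
  exact hc.mem

theorem jBar_ne_zero' : jBar (M * q) ≠ 0 := by
  intro h
  have h1 : coeB (M * q) (jBar (M * q)) = 0 := by rw [h, map_zero]
  rw [coeB_apply, FibreProd.coe_jBar] at h1
  exact jqModC_ne_zero_of_nontrivial Kb h1

theorem inv_jBar_mem_O1 : (jBar (M * q))⁻¹ ∈ O1 M B hB := by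
  apply inv_mem_of_notMem_nonunits (O1 M B hB)
  rw [mem_nonunits_O1_iff B hB (jBar_mem_O1 B hB), res1_jBar]
  exact jqModC_ne_zero'' B

variable (M q) in
/-- the separator at infinity `j(s^q) / j^q` -/
def hSepInf : Fb (M * q) := jq' M q * ((jBar (M * q))⁻¹) ^ q

theorem hSepInf_mem_O1 : hSepInf M q ∈ O1 M B hB :=
  (O1 M B hB).mul_mem _ _ (jq'_mem_O1 B hB)
    ((O1 M B hB).toSubring.pow_mem (inv_jBar_mem_O1 B hB) q)

/-- the separator at infinity is `≡ 1` on `can` -/
theorem res_hSepInf : resCan B hB hqM ⟨hSepInf M q, hSepInf_mem_O1 B hB⟩ = 1 := by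
  have e : (⟨hSepInf M q, hSepInf_mem_O1 B hB⟩ : O1 M B hB) =
      ⟨jq' M q, jq'_mem_O1 B hB⟩ * ⟨(jBar (M * q))⁻¹, inv_jBar_mem_O1 B hB⟩ ^ q := Subtype.ext rfl
  rw [e, map_mul, map_pow, res_jq', res_inv_eq (O1 M B hB) (resCan B hB hqM) jBar_ne_zero'
    (jBar_mem_O1 B hB), res_jBar, ← mul_pow, mul_inv_cancel₀ (jFullC_ne_zero' B), one_pow]

theorem inv_jq'_eq : (jq' M q)⁻¹ = ((jBar (M * q))⁻¹) ^ q * (hSepInf M q)⁻¹ := by
  unfold hSepInf
  have h1 := jq'_ne_zero (M := M) (q := q)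
  have h2 := jBar_ne_zero' (M := M) (q := q)
  field_simp

set_option maxHeartbeats 1600000 in
/-- **the coefficient ring of the sheet lies in the ring of every regular chart of `can` which
contains `1/j` and the separator at infinity** (e.g. the chart at a cusp of the modular atlas:
both lie in `chartInf`). -/
theorem cuspRing_le_chart {Q : Place kB FtM} {T : Set (Place Kb (Fb (M * q)))}
    (C : RegChart B (constRedW1 B hB hqM).O (constRedW1 B hB hqM).res Q T)
    (hj : (jBar (M * q))⁻¹ ∈ C.chart.R) (hh : hSepInf M q ∈ C.chart.R) :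
    cuspRing M q ≤ C.chart.R := by
  -- the separator is a unit of the local ring
  have hunit : IsUnit (⟨hSepInf M q, hh⟩ : C.chart.R) := by
    by_contra hnot
    have h1 := C.chart.branch ⟨hSepInf M q, hh⟩ hnot
    have h2 : (constRedW1 B hB hqM).res ⟨hSepInf M q, C.chart.le _ hh⟩ = 1 :=
      res_hSepInf B hB hqM
    rw [h2, map_one] at h1
    exact lt_irrefl _ h1
  have hinv : (hSepInf M q)⁻¹ ∈ C.chart.R := by
    obtain ⟨z, hz⟩ := hunit.exists_right_inv
    have h1 : hSepInf M q * (z : Fb (M * q)) = 1 := by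
      have := congrArg Subtype.val hz
      simpa using this
    rw [inv_eq_of_mul_eq_one_right h1]
    exact z.2
  have hjq : (jq' M q)⁻¹ ∈ C.chart.R := by
    rw [inv_jq'_eq]
    exact C.chart.R.mul_mem (C.chart.R.pow_mem hj q) hinv
  have hadj : ∀ r ∈ Algebra.adjoin ℤ {(jq' M q)⁻¹}, r ∈ C.chart.R := by
    intro r hr
    induction hr using Algebra.adjoin_induction with
    | mem s hs =>
      rw [Set.mem_singleton_iff.mp hs]
      exact hjq
    | algebraMap c =>
      rw [eq_intCast]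
      exact intCast_mem C.chart.R c
    | add a b _ _ ha hb => exact C.chart.R.add_mem ha hb
    | mul a b _ _ ha hb => exact C.chart.R.mul_mem ha hb
  intro y hy
  exact RegChart.mem_of_isIntegral C (isIntegral_subring_of_le hadj hy)

end Chart

end Fermat.Agent.BR3.CuspSheet
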