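import Fermat.Agent.BR3.CuspSheet.Chart
import Fermat.Agent.BR3.CuspMid.CuspHr1
import Fermat.Agent.BR.Inst.Inf.BetaLift

/-!
# Program C, node (SC4-INST): the middle sheets at the cusps of `can` — the char-0 / chart half

`F₁ = Fb (M * q)`, `F₂ = Fb (M * q * q)` (algebra along `α₂`), `j = jBar (M * q)`,
`j' = jq' M q = j(s^q)`, `jqq M q = j(s^{q²})`, `θ∞ = thetaInf M q = jqq / j'^q`,
`hSepInf M q = j' / j^q`.  The cusp generator of helper21's `CuspMid.thetaCuspInf hqM e z`
(`= thetaGen hqM ((1 - hSepInf M q)^e) j⁻¹ j⁻¹ z`) is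

  `(1 - θ∞)^e · (j / jqq - 1) / (z - 1)`            (`thetaGen_cusp_eq`).

* `isIntegral_thetaGen_cusp` : the generator is integral over EVERY valuation subring `V` of `F₁`
  containing the constants, `1/j'`, `1/hSepInf` and the inverse of `W_q fInf`:
  `θ∞` is a root of `psiInf` (coefficients in `cuspRing`), and
  `(j / jqq)^q = α₂ (1/hSepInf) · β₂ (j / j'^q)` where `fInf^m · (j / j'^q)` is integral over
  `Kb[1/j]` (`BetaLift.exists_pow_mul_isIntegral'`) and `β₂ = α₂ ∘ W_q` on `Kb[1/j]`;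
* `minpoly_coeff_mem_chart` (generic): for a smooth chart `C` of `can` and `θ` integral on `cInf`, on
  all middle valuations and over the valuation ring of every place of the tube, the coefficients
  of `minpoly F₁ θ` lie in `C.R` (`minpoly_coeff_mem_O1'` + `SmoothChart.normal`);
* **`minpoly_thetaCuspInf_coeff_mem`** : `coeff_mem` of helper21's
  `CuspMid.exists_coverSheet_mid_cuspInf_can` at every cusp `Q'` of `can`, for the ring of
  `RegAtlas.regChartCan`;
* **`exists_coverSheet_mid_cusp_chart`** : the sheet of `mid = w₂ b₀` at every `Q''` over every cusp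
  `Q'` of `can`, hypothesis-free (`e = 2`, uniform in `q`);
* **`exists_midChartCusp`** : the regular chart of `mid` there (`coverRegChartOfConstRed`), tube
  `coverTube B {P | H.r P = ⟨0, Q'⟩} (thetaCuspInf hqM 2 z₀) u`, parameter `α₂ t`.
-/

set_option autoImplicit false
set_option linter.style.haveILetI false
set_option linter.unusedSectionVars false

noncomputable section

/- S36 build-time patch: file-local shortcut instances. They only shorten instance search;
each is the instance that the search finds anyway (reducible, same terms after unfolding). -/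
local instance (priority := 100000) Fermat.Agent.BR3.FastInst.instAlgFullC_CuspSheet_MidCusp
    {k : Type*} [Field k] (N : ℕ) :
    Algebra k ↥(ModularCurve.modularFunctionFieldFullC k N) := inferInstance
local instance (priority := 100000) Fermat.Agent.BR3.FastInst.instFieldFullC_CuspSheet_MidCusp
    {k : Type*} [Field k] (N : ℕ) :
    Field ↥(ModularCurve.modularFunctionFieldFullC k N) := inferInstance
local instance (priority := 100000) Fermat.Agent.BR3.FastInst.instAlgLaurent_CuspSheet_MidCusp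
    {k : Type*} [Field k] : Algebra k (LaurentSeries k) := inferInstance


set_option synthInstance.maxHeartbeats 400000

namespace Fermat.Agent.BR3.CuspSheet

open ModularCurve AlgebraicCurve IsLocalRing Polynomial
open Fermat.Agent.X0 Fermat.Agent.Val Fermat.Agent.Red Fermat.Agent.BR.Centre
open Fermat.Agent.Hecke.AL Fermat.Agent.BR.TwoVal Fermat.Agent.BR.TwoValInst
open Fermat.Agent.BR.ConstRedTwo Fermat.Agent.BR.ResGen Fermat.Agent.BR.S0
open Fermat.Agent.BR3.CoverK Fermat.Agent.BR3.FibreProd Fermat.Agent.BR3.CInfRes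
open Fermat.Agent.BR.Kron

variable {M q : ℕ} [NeZero M] [hq : Fact q.Prime]

section Formula

variable (hqM : ¬ q ∣ M)

theorem Wq_jBar' : Wq hqM (jBar (M * q)) = jq' M q := by
  rw [← MidBeta.Wq_jq' (hqM := hqM), Wq_Wq]

theorem jqq_ne_zero : jqq M q ≠ 0 := by
  rw [← beta2_jq']
  exact (_root_.map_ne_zero _).2 jq'_ne_zero

theorem beta2_one_sub_hSepInf : beta2 M q (1 - hSepInf M q) = 1 - thetaInf M q := by
  unfold hSepInf thetaInf cInv
  rw [map_sub, map_one, map_mul, map_pow, map_inv₀, beta2_jq', beta2_jBar, map_pow, map_inv₀]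

theorem Ux_inv_jBar :
    Ux hqM (jBar (M * q))⁻¹ = (jqq M q)⁻¹ - (alpha2 M q (jBar (M * q)))⁻¹ := by
  unfold Ux
  rw [map_inv₀, Wq_jBar', map_inv₀, beta2_jq', map_inv₀]

/-- **the cusp generator**: `(1 - θ∞)^e (j / j(s^{q²}) - 1) / (z - 1)` -/
theorem thetaGen_cusp_eq (e : ℕ) (z : Kb) :
    thetaGen hqM ((1 - hSepInf M q) ^ e) (jBar (M * q))⁻¹ (jBar (M * q))⁻¹ z =
      (1 - thetaInf M q) ^ e * (alpha2 M q (jBar (M * q)) * (jqq M q)⁻¹ - 1) *
        algebraMap Kb (Fb (M * q * q)) (z - 1)⁻¹ := by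
  have h1 : alpha2 M q (jBar (M * q)) ≠ 0 := (_root_.map_ne_zero _).2 jBar_ne_zero'
  have h2 := jqq_ne_zero (M := M) (q := q)
  unfold thetaGen UxTilde
  rw [map_pow, beta2_one_sub_hSepInf, Ux_inv_jBar, inv_inv]
  field_simp

end Formula


/-! ### Integrality over a valuation subring of `F₁` -/

section Integral

/-- a root of a monic polynomial with coefficients in a valuation subring is integral over it -/
theorem isIntegral_of_aeval_eq_zero {F E : Type*} [Field F] [Field E] [Algebra F E]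
    (V : ValuationSubring F) {p : F[X]} (hp : p.Monic) (hc : ∀ n, p.coeff n ∈ V) {x : E}
    (hx : aeval x p = 0) :
    letI : Algebra V E := ((algebraMap F E).comp V.subtype).toAlgebra
    IsIntegral V x := by
  letI : Algebra V E := ((algebraMap F E).comp V.subtype).toAlgebra
  have hlifts : p ∈ Polynomial.lifts (V.subtype) :=
    (Polynomial.lifts_iff_coeff_lifts _).mpr fun i => ⟨⟨p.coeff i, hc i⟩, rfl⟩
  obtain ⟨p', hp'p, -, hp'm⟩ := Polynomial.lifts_and_natDegree_eq_and_monic hlifts hp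
  refine ⟨p', hp'm, ?_⟩
  have e : algebraMap V E = (algebraMap F E).comp V.subtype := rfl
  rw [e, ← Polynomial.eval₂_map, hp'p]
  exact hx

/-- the coefficients of the minimal polynomial of an element integral over a valuation subring
of the base field lie in it -/
theorem minpoly_coeff_mem_valSubring_of_isIntegral {F E : Type*} [Field F] [Field E] [Algebra F E]
    (V : ValuationSubring F) {x : E}
    (hint : letI : Algebra V E := ((algebraMap F E).comp V.subtype).toAlgebra; IsIntegral V x)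
    (n : ℕ) : (minpoly F x).coeff n ∈ V := by
  letI : Algebra V E := ((algebraMap F E).comp V.subtype).toAlgebra
  haveI : IsScalarTower V F E := IsScalarTower.of_algebraMap_eq fun _ => rfl
  rw [minpoly.isIntegrallyClosed_eq_field_fractions' F hint, Polynomial.coeff_map]
  exact ((minpoly V x).coeff n).2

variable (hqM : ¬ q ∣ M)

/-- the elements of `ℤ[1/j(s^q)]`-integral closure lie in a valuation subring containing
`1/j(s^q)` -/
theorem cuspRing_le_valuationSubring (V : ValuationSubring (Fb (M * q)))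
    (h1 : (jq' M q)⁻¹ ∈ V) : ∀ y ∈ cuspRing M q, y ∈ V := by
  have hadj : ∀ r ∈ Algebra.adjoin ℤ {(jq' M q)⁻¹}, r ∈ V := by
    intro r hr
    induction hr using Algebra.adjoin_induction with
    | mem s hs =>
      rw [Set.mem_singleton_iff.mp hs]
      exact h1
    | algebraMap c =>
      rw [eq_intCast]
      exact intCast_mem V c
    | add a b _ _ ha hb => exact V.add_mem _ _ ha hb
    | mul a b _ _ ha hb => exact V.mul_mem _ _ ha hb
  intro y hy
  exact mem_of_isIntegral_of_le V hadj hy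

open Fermat.Agent.BR.Inst.Inf Fermat.Agent.BR.Inst.Inf.BetaLift in
/-- on `Kb[1/j]` the map `β₂` is `α₂ ∘ W_q`, and `W_q` maps it into every valuation subring
containing the constants and `1/j(s^q)` -/
theorem Wq_mem_and_alpha2_Wq (V : ValuationSubring (Fb (M * q)))
    (hK : ∀ c : Kb, algebraMap Kb (Fb (M * q)) c ∈ V) (h1 : (jq' M q)⁻¹ ∈ V)
    {s : Fb (M * q)} (hs : s ∈ modelBaseInf (M * q) (⊤ : Subring Kb)) :
    Wq hqM s ∈ V ∧ alpha2 M q (Wq hqM s) = beta2 M q s := by
  rw [modelBaseInf_eq] at hs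
  induction hs using Subring.closure_induction with
  | mem x hx =>
    rcases hx with ⟨c, -, rfl⟩ | hx
    · rw [AlgEquiv.commutes]
      exact ⟨hK c, by rw [AlgHom.commutes, AlgHom.commutes]⟩
    · rw [Set.mem_singleton_iff.mp hx, map_inv₀, Wq_jBar']
      exact ⟨h1, by rw [map_inv₀, map_inv₀, beta2_jBar]⟩
  | zero => exact ⟨by rw [map_zero]; exact V.zero_mem, by rw [map_zero, map_zero, map_zero]⟩
  | one => exact ⟨by rw [map_one]; exact V.one_mem, by rw [map_one, map_one, map_one]⟩
  | add x y _ _ hx hy =>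
    exact ⟨by rw [map_add]; exact V.add_mem _ _ hx.1 hy.1, by
      rw [map_add, map_add, map_add, hx.2, hy.2]⟩
  | neg x _ hx =>
    exact ⟨by rw [map_neg]; exact V.neg_mem _ hx.1, by rw [map_neg, map_neg, map_neg, hx.2]⟩
  | mul x y _ _ hx hy =>
    exact ⟨by rw [map_mul]; exact V.mul_mem _ _ hx.1 hy.1, by
      rw [map_mul, map_mul, map_mul, hx.2, hy.2]⟩


/-- `(j / j(s^{q²}))^q = α₂ (j^q / j(s^q)) · β₂ (j / j(s^q)^q)` -/
theorem pow_eq_alpha2_mul_beta2 :
    (alpha2 M q (jBar (M * q)) * (jqq M q)⁻¹) ^ q =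
      alpha2 M q ((hSepInf M q)⁻¹) * beta2 M q (a1 M q) := by
  have h1 : alpha2 M q (jBar (M * q)) ≠ 0 := (_root_.map_ne_zero _).2 jBar_ne_zero'
  have h2 := jqq_ne_zero (M := M) (q := q)
  have h3 : alpha2 M q (jq' M q) ≠ 0 := (_root_.map_ne_zero _).2 jq'_ne_zero
  unfold hSepInf a1 cInv
  rw [map_inv₀, map_mul, map_pow, map_inv₀, map_mul, map_pow, map_inv₀, beta2_jBar, beta2_jq']
  field_simp
  rw [← mul_pow]
  congr 1
  field_simp

open Fermat.Agent.BR.Inst.Inf Fermat.Agent.BR.Inst.Inf.BetaLift in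
set_option maxHeartbeats 1600000 in
/-- **the cusp generator is integral over every valuation subring `V` of `F₁` containing the
constants, `1/j(s^q)`, the inverse of the separator at infinity and the inverse of `W_q fInf`** -/
theorem isIntegral_thetaGen_cusp (V : ValuationSubring (Fb (M * q)))
    (hK : ∀ c : Kb, algebraMap Kb (Fb (M * q)) c ∈ V) (h1 : (jq' M q)⁻¹ ∈ V)
    (h2 : (hSepInf M q)⁻¹ ∈ V) (h3 : ∃ w ∈ V, Wq hqM (fInf M q) * w = 1) (e : ℕ) (z : Kb) :
    letI := algebraAlong (alpha2 M q)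
    letI : Algebra V (Fb (M * q * q)) :=
      ((algebraMap (Fb (M * q)) (Fb (M * q * q))).comp V.subtype).toAlgebra
    IsIntegral V
      (thetaGen hqM ((1 - hSepInf M q) ^ e) (jBar (M * q))⁻¹ (jBar (M * q))⁻¹ z) := by
  letI := algebraAlong (alpha2 M q)
  letI : Algebra V (Fb (M * q * q)) :=
    ((algebraMap (Fb (M * q)) (Fb (M * q * q))).comp V.subtype).toAlgebra
  -- images of elements of `V`
  have hα : ∀ y ∈ V, IsIntegral V (alpha2 M q y) := fun y hy =>
    isIntegral_algebraMap (R := V) (A := Fb (M * q * q)) (x := ⟨y, hy⟩)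
  -- `θ∞`
  have hθ : IsIntegral V (thetaInf M q) :=
    isIntegral_of_aeval_eq_zero V psiInf_monic
      (fun n => cuspRing_le_valuationSubring V h1 _ (psiInf_coeff_mem n))
      (aeval_thetaInf_psiInf hqM)
  -- `β₂ a1`
  have ha1 : IsIntegral ↥(Subring.closure ((algebraMap Kb (Fb (M * q))) '' ((⊤ : Subring Kb) : Set Kb) ∪
      {(Fermat.Agent.BR.CuspSepVal.jB M q)⁻¹})) (a1 M q) := by
    have h := a1_mem_cuspRing (M := M) (q := q)
    rw [mem_cuspRing_iff] at h
    refine isIntegral_subring_of_le (fun r hr => ?_) h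
    induction hr using Algebra.adjoin_induction with
    | mem s hs =>
      rw [Set.mem_singleton_iff.mp hs, ← jB_eq_jq']
      exact Subring.subset_closure (Or.inr rfl)
    | algebraMap c =>
      rw [eq_intCast]
      exact intCast_mem _ c
    | add a b _ _ ha hb => exact Subring.add_mem _ ha hb
    | mul a b _ _ ha hb => exact Subring.mul_mem _ ha hb
  obtain ⟨m, hm⟩ := exists_pow_mul_isIntegral' (M := M) (q := q) (⊤ : Subring Kb) ha1
  have hP := fun (s : Fb (M * q)) (hs : s ∈ modelBaseInf (M * q) (⊤ : Subring Kb)) =>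
    Wq_mem_and_alpha2_Wq hqM V hK h1 hs
  let φ : ↥(modelBaseInf (M * q) (⊤ : Subring Kb)) →+* V :=
    ((Wq hqM : Fb (M * q) ≃ₐ[Kb] Fb (M * q)) : Fb (M * q) →+* Fb (M * q)).restrict _ V.toSubring
      (fun s hs => (hP s hs).1)
  have hβm : IsIntegral V (beta2 M q (fInf M q ^ m * a1 M q)) := by
    refine hm.map_of_comp_eq φ (beta2 M q : Fb (M * q) →+* Fb (M * q * q)) ?_
    exact RingHom.ext fun s => (hP s s.2).2
  have hf := hP (fInf M q) (fInf_mem_modelBaseInf ⊤)
  obtain ⟨w, hwV, hw⟩ := h3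
  have hβ : beta2 M q (a1 M q) = alpha2 M q w ^ m * beta2 M q (fInf M q ^ m * a1 M q) := by
    rw [map_mul, map_pow, ← hf.2, ← mul_assoc, ← mul_pow, ← map_mul, mul_comm w, hw, map_one,
      one_pow, one_mul]
  have hy : IsIntegral V (alpha2 M q (jBar (M * q)) * (jqq M q)⁻¹) := by
    refine IsIntegral.of_pow hq.out.pos ?_
    rw [pow_eq_alpha2_mul_beta2, hβ]
    exact (hα _ h2).mul (((hα _ hwV).pow m).mul hβm)
  rw [thetaGen_cusp_eq]
  refine (((isIntegral_one.sub hθ).pow e).mul (hy.sub isIntegral_one)).mul ?_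
  have e : algebraMap Kb (Fb (M * q * q)) (z - 1)⁻¹ =
      alpha2 M q (algebraMap Kb (Fb (M * q)) (z - 1)⁻¹) := ((alpha2 M q).commutes _).symm
  rw [e]
  exact hα _ (hK _)

end Integral


/-! ### The coefficients of the minimal polynomial lie in the chart ring -/

section Chart

variable (B : ValuationSubring (AlgebraicClosure ℚ)) (hB : B.LiesOverPrime q) (hqM : ¬ q ∣ M)
variable {ζ : Kbˣ} (hζ : IsPrimitiveRoot ζ q)

local notation "kB" => IsLocalRing.ResidueField B
local notation "FtM" => modularFunctionFieldFullC (IsLocalRing.ResidueField B) M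

/-- the coefficients of the minimal polynomial over `α₂ F₁` of an element integral on `cInf` and
on all middle valuations lie in `O1` (no hypothesis `θ ∉ α₂ F₁`) -/
theorem minpoly_coeff_mem_O1' {θ : Fb (M * q * q)} (h1 : θ ∈ w1 M B hB)
    (h2 : ∀ b : Fin (q - 1), θ ∈ w2 B hB hqM hζ b.2) (n : ℕ) :
    letI := algebraAlong (alpha2 M q)
    (minpoly (Fb (M * q)) θ).coeff n ∈ O1 M B hB := by
  letI := algebraAlong (alpha2 M q)
  by_cases hx : θ ∈ Set.range (alpha2 M q)
  · obtain ⟨c, rfl⟩ := hx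
    have hc : c ∈ O1 M B hB := (alpha2_mem_w1_iff B hB c).1 h1
    have e : minpoly (Fb (M * q)) (alpha2 M q c) = X - C c :=
      minpoly.eq_X_sub_C (Fb (M * q * q)) c
    rw [e, coeff_sub, coeff_X, coeff_C]
    refine sub_mem ?_ ?_
    · split_ifs
      · exact (O1 M B hB).one_mem
      · exact (O1 M B hB).zero_mem
    · split_ifs
      · exact hc
      · exact (O1 M B hB).zero_mem
  · exact CoverSheetInf.minpoly_coeff_mem_O1 B hB hqM hζ hx h1 h2 n

set_option maxHeartbeats 1600000 in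
/-- **the coefficients of the minimal polynomial lie in the ring of a smooth chart of `can`** as
soon as the element is integral on `cInf` and the middle valuations, and integral over the
valuation ring of every place of the tube -/
theorem minpoly_coeff_mem_chart {Q' : Place kB FtM} {T' : Set (Place Kb (Fb (M * q)))}
    (C : SmoothChart B (constRedW1 B hB hqM).O (constRedW1 B hB hqM).res Q' T')
    {θ : Fb (M * q * q)} (h1 : θ ∈ w1 M B hB)
    (h2 : ∀ b : Fin (q - 1), θ ∈ w2 B hB hqM hζ b.2)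
    (hint : ∀ P ∈ T',
      letI := algebraAlong (alpha2 M q)
      letI : Algebra P.toValuationSubring (Fb (M * q * q)) :=
        ((algebraMap (Fb (M * q)) (Fb (M * q * q))).comp P.toValuationSubring.subtype).toAlgebra
      IsIntegral P.toValuationSubring θ) (n : ℕ) :
    letI := algebraAlong (alpha2 M q)
    (minpoly (Fb (M * q)) θ).coeff n ∈ C.R := by
  letI := algebraAlong (alpha2 M q)
  refine C.normal _ (minpoly_coeff_mem_O1' B hB hqM hζ h1 h2 n) fun P hP => ?_
  rw [← Place.mem_iff_ord_nonneg]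
  exact minpoly_coeff_mem_valSubring_of_isIntegral P.toValuationSubring (hint P hP) n

set_option maxHeartbeats 1600000 in
/-- an element of the local ring of a chart whose reduction does not vanish at the point is a
unit of the local ring -/
theorem exists_mul_eq_one_of_res {Q' : Place kB FtM} {T' : Set (Place Kb (Fb (M * q)))}
    (C : SmoothChart B (constRedW1 B hB hqM).O (constRedW1 B hB hqM).res Q' T')
    {y : Fb (M * q)} (hy : y ∈ C.R)
    (hres : (constRedW1 B hB hqM).res ⟨y, C.le y hy⟩ = 1) : ∃ w ∈ C.R, y * w = 1 := by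
  have hunit : IsUnit (⟨y, hy⟩ : C.R) := by
    by_contra hnot
    have h1 := C.branch ⟨y, hy⟩ hnot
    rw [hres, map_one] at h1
    exact lt_irrefl _ h1
  obtain ⟨z, hz⟩ := hunit.exists_right_inv
  refine ⟨(z : Fb (M * q)), z.2, ?_⟩
  have := congrArg Subtype.val hz
  simpa using this

open Fermat.Agent.BR.Inst.Inf.BetaLift in
/-- `W_q fInf ∈ ℤ[1/j(s^q)]` -/
theorem Wq_fInf_mem_cuspRing : Wq hqM (fInf M q) ∈ cuspRing M q := by
  have hgen : (jq' M q)⁻¹ ∈ cuspRing M q :=
    (integralClosure (Algebra.adjoin ℤ {(jq' M q)⁻¹}) (Fb (M * q))).algebraMap_mem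
      ⟨(jq' M q)⁻¹, Algebra.subset_adjoin rfl⟩
  have key : ∀ s ∈ Subring.closure ({(jOne M q)⁻¹} : Set (Fb (M * q))),
      Wq hqM s ∈ cuspRing M q := by
    intro s hs
    induction hs using Subring.closure_induction with
    | mem x hx =>
      rw [Set.mem_singleton_iff.mp hx, jOne_eq_jBar, map_inv₀, Wq_jBar']
      exact hgen
    | zero => rw [map_zero]; exact (cuspRing M q).zero_mem
    | one => rw [map_one]; exact (cuspRing M q).one_mem
    | add x y _ _ hx hy => rw [map_add]; exact (cuspRing M q).add_mem hx hy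
    | neg x _ hx => rw [map_neg]; exact (cuspRing M q).neg_mem hx
    | mul x y _ _ hx hy => rw [map_mul]; exact (cuspRing M q).mul_mem hx hy
  exact key _ fInf_mem_closure

open Fermat.Agent.BR.Inst.Inf.BetaLift in
theorem Wq_fInf_mem_O1 : Wq hqM (fInf M q) ∈ O1 M B hB :=
  (mem_O2_iff B hB hqM).1 (fInf_mem_O2 B hB hqM)

open Fermat.Agent.BR.Inst.Inf.BetaLift in
/-- `W_q fInf ≡ 1` on `can` -/
theorem res_Wq_fInf :
    resCan B hB hqM ⟨Wq hqM (fInf M q), Wq_fInf_mem_O1 B hB hqM⟩ = 1 := by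
  have h0 := fInf_sub_one_mem_nonunits_O2 (M := M) B hB hqM
  rw [mem_nonunits_O2_iff_Wq, map_sub, map_one] at h0
  have hmem : Wq hqM (fInf M q) - 1 ∈ O1 M B hB :=
    sub_mem (Wq_fInf_mem_O1 B hB hqM) (O1 M B hB).one_mem
  have h1 := (mem_nonunits_O1_iff B hB hmem).1 h0
  have e : (⟨Wq hqM (fInf M q) - 1, hmem⟩ : O1 M B hB) =
      ⟨Wq hqM (fInf M q), Wq_fInf_mem_O1 B hB hqM⟩ - 1 := Subtype.ext rfl
  have h2 : resCan B hB hqM ⟨Wq hqM (fInf M q) - 1, hmem⟩ = 0 := by
    apply Subtype.ext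
    rw [coe_resCan]
    exact h1
  rw [e, map_sub, map_one, sub_eq_zero] at h2
  exact h2

open Fermat.Agent.BR3.RegAtlas Fermat.Agent.BR.S0.RedHyp Fermat.Agent.BR.S0.RedModular
  Fermat.Agent.BR.S0.PointDict Fermat.Agent.BR.Inst.SmoothModularAll
  Fermat.Agent.BR.Inst.CkPointModular Fermat.Agent.BR3.CuspMid in
include hζ in
set_option maxHeartbeats 1600000 in
/-- **(SC4, `coeff_mem`) the coefficients of the minimal polynomial of the cusp generator of the
middle sheets lie in the ring of the regular chart of `can` at a cusp** -/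
theorem minpoly_thetaCuspInf_coeff_mem (H : AtlasHyp (chartDataModular B hB hqM) (jx M q))
    (Q : Place kB FtM) (hQnc : ∀ e, Q ≠ z₁ (chartDataModular B hB hqM) e)
    (hQ : Q.adicValuation ((jFullC kB M)⁻¹) < 1) (b₀ : Fin (q - 1)) {e : ℕ}
    (he : 2 ≤ (q - 1) * e) (n : ℕ) :
    letI := algebraAlong (alpha2 M q)
    (minpoly (Fb (M * q))
      (thetaCuspInf (M := M) hqM e ((ζ ^ ((b₀ : ℕ) + 1) : Kbˣ) : Kb))).coeff n ∈
      (regChartCan B hB hqM H Q hQnc).chart.R := by
  letI := algebraAlong (alpha2 M q)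
  set C := regChartCan B hB hqM H Q hQnc with hC
  have hr2 := rInf_mem_O2 (M := M) B hB hqM e
  have hr1 := rInf_mul_mem_nonunits_O1 (M := M) B hB hqM hζ b₀.2 he
  have hx1 := jBar_inv_mem_O1 (M := M) B hB
  have hx2 := jBar_inv_mem_O2 (M := M) B hB hqM
  have hh := jBar_inv_inv_mem_O1 (M := M) B hB
  have h1 : thetaCuspInf (M := M) hqM e ((ζ ^ ((b₀ : ℕ) + 1) : Kbˣ) : Kb) ∈ w1 M B hB :=
    Fermat.Agent.Val.mem_of_mem_nonunits _
      (thetaGen_mem_nonunits_w1 hqM B hB hr1 hx1 hx2 hh)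
  have h2 : ∀ b' : Fin (q - 1), thetaCuspInf (M := M) hqM e ((ζ ^ ((b₀ : ℕ) + 1) : Kbˣ) : Kb) ∈
      w2 B hB hqM hζ b'.2 := by
    intro b'
    obtain ⟨m, hm⟩ := exists_zeta_pow_eq hζ b₀.2 b'.2
    exact (exists_resw2_thetaGen hqM B hB hζ (b := (b₀ : ℕ)) hr2 hx1 hh b'.2 m hm).1
  refine minpoly_coeff_mem_chart B hB hqM hζ C.chart h1 h2 (fun P hP => ?_) n
  -- the chart ring is contained in the valuation ring of the place
  have hRV : ∀ y ∈ C.chart.R, y ∈ P.toValuationSubring := by
    intro y hy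
    obtain ⟨c, -, hc⟩ := (C.centred P hP).1 y hy
    exact hc.mem
  have hcR := cuspRing_le_regChartCan B hB hqM H Q hQnc hQ
  have hgen : (jq' M q)⁻¹ ∈ cuspRing M q :=
    (integralClosure (Algebra.adjoin ℤ {(jq' M q)⁻¹}) (Fb (M * q))).algebraMap_mem
      ⟨(jq' M q)⁻¹, Algebra.subset_adjoin rfl⟩
  have hhR : hSepInf M q ∈ C.chart.R :=
    chartInf_le_regChartCan B hB hqM H Q hQnc hQ hSepInf_mem_chartInf
  obtain ⟨w, hwR, hw⟩ := exists_mul_eq_one_of_res B hB hqM C.chart hhR (res_hSepInf B hB hqM)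
  obtain ⟨w', hw'R, hw'⟩ := exists_mul_eq_one_of_res B hB hqM C.chart
    (hcR (Wq_fInf_mem_cuspRing hqM)) (res_Wq_fInf B hB hqM)
  have h2' : (hSepInf M q)⁻¹ ∈ P.toValuationSubring := by
    rw [inv_eq_of_mul_eq_one_right hw]
    exact hRV _ hwR
  exact isIntegral_thetaGen_cusp hqM P.toValuationSubring P.algebraMap_mem'
    (hRV _ (hcR hgen)) h2' ⟨w', hRV _ hw'R, hw'⟩ e _

/-! ### The sheets and the regular charts of the middle components at the cusps -/

open Fermat.Agent.BR3.RegAtlas Fermat.Agent.BR.S0.RedHyp Fermat.Agent.BR.S0.RedModular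
  Fermat.Agent.BR.S0.PointDict Fermat.Agent.BR.Inst.SmoothModularAll
  Fermat.Agent.BR.Inst.CkPointModular Fermat.Agent.BR3.CuspMid

/-- a cusp is a pole of `j̃` -/
theorem ord_jFullC_neg_of_cusp {Q : Place kB FtM} (hQ : Q.adicValuation ((jFullC kB M)⁻¹) < 1) :
    Q.ord (jFullC kB M) < 0 := by
  rcases (adicValuation_lt_one_iff Q).1 hQ with h | h
  · exact absurd (inv_eq_zero.1 h) (jFullC_ne_zero' B)
  · rw [Place.ord_inv] at h
    omega

include hq in
theorem two_le_pred_mul_two : 2 ≤ (q - 1) * 2 := by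
  have := hq.out.two_le
  omega

include hζ in
set_option maxHeartbeats 1600000 in
/-- **(SC4) The sheet of the middle component `mid = w₂ b₀` at EVERY point `Q''` of `mid` over a
cusp `Q'` of `can` along `α₂`**, hypothesis-free: generator
`thetaCuspInf hqM 2 z₀ = (1 - θ∞)² (j/j(s^{q²}) - 1)/(z₀ - 1)`, `z₀ = ζ^{b₀+1}`, coefficient ring the
ring of the regular chart `regChartCan` of `can` at the cusp. -/
theorem exists_coverSheet_mid_cusp_chart [FiniteDimensional FtM (FMid M B)]
    (H : AtlasHyp (chartDataModular B hB hqM) (jx M q))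
    (Q' : Place kB FtM) (hQnc : ∀ e, Q' ≠ z₁ (chartDataModular B hB hqM) e)
    (hQ : Q'.adicValuation ((jFullC kB M)⁻¹) < 1) (b₀ : Fin (q - 1))
    {Q'' : Place kB (FMid M B)} (hQ'' : Q''.restrict FtM = Q') :
    letI := algebraAlong (alpha2 M q)
    haveI := isScalarTower_along (alpha2 M q)
    ∃ (u : B) (ψ ψc : (Fb (M * q))[X]), IsLocalRing.residue B u ≠ 0 ∧
      CoverSheet B (IsLocalRing.residue B) (constRedW1 B hB hqM).O (constRedW1 B hB hqM).res Q'
        (constRedMid B hB hqM hζ b₀.2).O (constRedMid B hB hqM hζ b₀.2).res Q''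
        (regChartCan B hB hqM H Q' hQnc).chart.R
        (thetaCuspInf (M := M) hqM 2 ((ζ ^ ((b₀ : ℕ) + 1) : Kbˣ) : Kb))
        (minpoly (Fb (M * q)) (thetaCuspInf (M := M) hqM 2 ((ζ ^ ((b₀ : ℕ) + 1) : Kbˣ) : Kb)))
        ψ ψc u := by
  letI := algebraAlong (alpha2 M q)
  haveI := isScalarTower_along (alpha2 M q)
  exact exists_coverSheet_mid_cuspInf_can B hB hqM hζ two_le_pred_mul_two b₀ H Q' hQnc
    (ord_jFullC_neg_of_cusp B hQ) hQ''
    (fun n => minpoly_thetaCuspInf_coeff_mem B hB hqM hζ H Q' hQnc hQ b₀ two_le_pred_mul_two n)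

include hζ in
set_option maxHeartbeats 1600000 in
/-- **(SC4) The regular chart of `mid = w₂ b₀` at every point `Q''` over a cusp `Q'` of `can`**:
the lift of the regular chart `regChartCan` of `S'` along the sheet `θ ≡ u`
(tube `coverTube B {P | H.r P = ⟨0, Q'⟩} (thetaCuspInf hqM 2 z₀) u`, parameter `α₂ t`). -/
theorem exists_midChartCusp [FiniteDimensional FtM (FMid M B)]
    (H : AtlasHyp (chartDataModular B hB hqM) (jx M q))
    (Q' : Place kB FtM) (hQnc : ∀ e, Q' ≠ z₁ (chartDataModular B hB hqM) e)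
    (hQ : Q'.adicValuation ((jFullC kB M)⁻¹) < 1) (b₀ : Fin (q - 1))
    {Q'' : Place kB (FMid M B)} (hQ'' : Q''.restrict FtM = Q')
    (harch : ∀ a c : Kb, B.valuation a < 1 → c ≠ 0 → ∃ N : ℕ, B.valuation a ^ N ≤ B.valuation c) :
    letI := algebraAlong (alpha2 M q)
    haveI : Module.Finite (Fb (M * q)) (Fb (M * q * q)) := finite_alpha2
    ∃ (u : B), IsLocalRing.residue B u ≠ 0 ∧
      ∃ C : RegChart B (constRedMid B hB hqM hζ b₀.2).O (constRedMid B hB hqM hζ b₀.2).res Q''
        (coverTube B {P | H.r P = ⟨0, Q'⟩}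
          (thetaCuspInf (M := M) hqM 2 ((ζ ^ ((b₀ : ℕ) + 1) : Kbˣ) : Kb)) u),
        C.chart.t = alpha2 M q (regChartCan B hB hqM H Q' hQnc).chart.t := by
  letI := algebraAlong (alpha2 M q)
  haveI := isScalarTower_along (alpha2 M q)
  haveI : Module.Finite (Fb (M * q)) (Fb (M * q * q)) := finite_alpha2
  haveI : Algebra.IsSeparable (Fb (M * q)) (Fb (M * q * q)) :=
    Algebra.IsAlgebraic.isSeparable_of_perfectField
  obtain ⟨u, ψ, ψc, hu0, hsheet⟩ :=
    exists_coverSheet_mid_cusp_chart B hB hqM hζ H Q' hQnc hQ b₀ hQ''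
  exact ⟨u, hu0, coverRegChartOfConstRed (constRedW1 B hB hqM) (regChartCan B hB hqM H Q' hQnc)
    hsheet harch, rfl⟩

end Chart

end Fermat.Agent.BR3.CuspSheet
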