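import Fermat.Agent.BR3.FibreProdRoots
import Fermat.Agent.BR.PhiZDegree
import Fermat.Agent.BR3.GaussContractSub

/-!
# Program C, node (I7-CUSP), part SC2: the generator `θ∞` of the sheet of `cInf` at the cusps —
polynomial part

`F₁ = Fb (M * q)`, `F₂ = Fb (M * q * q)`, `α₂ : F₁ → F₂`; `j = jBar (M * q)`, `j' = jq' M q = j(s^q)`
in `F₁`, `jqq M q = j(s^{q²}) ∈ F₂`.  `Φ_q(X, j') = PhiAt M q ∈ F₁[X]` has the roots `j` (in `F₁`) and
`j(s^{q²})` (in `F₂`).  With `c = j'^q`:

* `thetaInf M q = j(s^{q²}) / α₂ c ∈ F₂` (`= β₂ (j' / j^q)`, the image of the separator at infinity);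
* `g1 M q = c^{-(q+1)} Φ_q(c X, j') ∈ F₁[X]`, monic of degree `q + 1`, coefficients in `ℤ[1/j']`
  (`g1_coeff_mem`, from the degree bound `PhiZDegree.natDegree_coeff_PhiZ_le`), roots `a1 = j / c` and
  `θ∞`;
* `psiInf M q = g1 /ₘ (X - a1)`, monic of degree `q`: the minimal polynomial of `θ∞` over `α₂ F₁`
  (`minpoly_thetaInf`), `θ∞` generates `F₂` (`adjoin_thetaInf_eq_top`);
* `cuspRing M q` : the integral closure of `ℤ[1/j']` in `F₁`; it contains the coefficients of
  `g1`, `a1` and the coefficients of `psiInf` (`psiInf_coeff_mem`);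
* `g1_eq_kron` : Kronecker's congruence for `g1`:
  `g1 = (X^q - j'^{1-q²}) (X - 1) + q · E`.
-/

set_option autoImplicit false
set_option linter.style.haveILetI false
set_option linter.unusedSectionVars false

noncomputable section

set_option synthInstance.maxHeartbeats 400000

namespace Fermat.Agent.BR3.CuspSheet

open ModularCurve AlgebraicCurve Polynomial Fermat.Agent.X0 Fermat.Agent.Val
open Fermat.Agent.Hecke.AL Fermat.Agent.Igusa Fermat.Agent.BR.Kron
open Fermat.Agent.BR3.FibreProd Fermat.Agent.BR3.GaussContractSub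

variable {M q : ℕ} [NeZero M] [hq : Fact q.Prime]

/-! ### Definitions -/

variable (M q) in
/-- `1 / j(s^q)^q ∈ F₁` -/
def cInv : Fb (M * q) := ((jq' M q)⁻¹) ^ q

variable (M q) in
/-- the root `j / j(s^q)^q ∈ F₁` of `g1` -/
def a1 : Fb (M * q) := jBar (M * q) * cInv M q

variable (M q) in
/-- `g1 = c^{-(q+1)} Φ_q(c X, j(s^q))`, `c = j(s^q)^q` -/
def g1 : (Fb (M * q))[X] :=
  C (cInv M q) ^ (q + 1) * (PhiAt M q).comp (C ((jq' M q) ^ q) * X)

variable (M q) in
/-- the minimal polynomial of `θ∞` -/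
def psiInf : (Fb (M * q))[X] := g1 M q /ₘ (X - C (a1 M q))

variable (M q) in
/-- **the generator** `θ∞ = j(s^{q²}) / α₂ j(s^q)^q` -/
def thetaInf : Fb (M * q * q) := jqq M q * alpha2 M q (cInv M q)

variable (M q) in
/-- **the coefficient ring**: the integral closure of `ℤ[1/j(s^q)]` in `F₁` -/
def cuspRing : Subring (Fb (M * q)) :=
  (integralClosure (Algebra.adjoin ℤ {(jq' M q)⁻¹}) (Fb (M * q))).toSubring

theorem mem_cuspRing_iff {y : Fb (M * q)} :
    y ∈ cuspRing M q ↔ IsIntegral (Algebra.adjoin ℤ {(jq' M q)⁻¹}) y := Iff.rfl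

/-! ### Basic facts -/

theorem jq'_ne_zero : jq' M q ≠ 0 := by
  intro h
  have h1 : coeB (M * q) (jq' M q) = 0 := by rw [h, map_zero]
  rw [coeB_apply, coe_jq'] at h1
  have h2 := congrArg (fun s : LaurentSeries Kb => s.coeff (-(q : ℤ))) h1
  simp only [HahnSeries.coeff_zero] at h2
  have h3 : (J (1 : Kbˣ) q).coeff (-(q : ℤ)) = 1 := by
    have hord : (J (1 : Kbˣ) q).order = -(q : ℤ) := order_J 1 q
    have hlead : (J (1 : Kbˣ) q).leadingCoeff = 1 := by
      rw [leadingCoeff_J]; simp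
    rw [← hord, ← HahnSeries.leadingCoeff_eq]
    exact hlead
  rw [h3] at h2
  exact one_ne_zero h2

theorem cInv_mul : cInv M q * (jq' M q) ^ q = 1 := by
  unfold cInv
  rw [← mul_pow, inv_mul_cancel₀ jq'_ne_zero, one_pow]

theorem mul_cInv : (jq' M q) ^ q * cInv M q = 1 := by
  rw [mul_comm ((jq' M q) ^ q) (cInv M q), cInv_mul]

theorem cInv_ne_zero : cInv M q ≠ 0 := fun h => by
  have := cInv_mul (M := M) (q := q)
  rw [h, zero_mul] at this
  exact zero_ne_one this

theorem pow_ne_zero' : (jq' M q) ^ q ≠ 0 := pow_ne_zero _ jq'_ne_zero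

/-! ### `g1` is monic of degree `q + 1` -/

theorem natDegree_C_mul_X' : (C ((jq' M q) ^ q) * X : (Fb (M * q))[X]).natDegree = 1 :=
  natDegree_C_mul_X _ pow_ne_zero'

theorem comp_natDegree : ((PhiAt M q).comp (C ((jq' M q) ^ q) * X)).natDegree = q + 1 := by
  rw [natDegree_comp, PhiAt_natDegree, natDegree_C_mul_X', mul_one]

theorem comp_leadingCoeff :
    ((PhiAt M q).comp (C ((jq' M q) ^ q) * X)).leadingCoeff = ((jq' M q) ^ q) ^ (q + 1) := by
  rw [leadingCoeff_comp (by rw [natDegree_C_mul_X']; exact one_ne_zero), PhiAt_monic.leadingCoeff,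
    one_mul, leadingCoeff_C_mul_X, PhiAt_natDegree]

theorem g1_monic : (g1 M q).Monic := by
  unfold g1
  rw [Monic, leadingCoeff_mul, leadingCoeff_pow, leadingCoeff_C, comp_leadingCoeff, ← mul_pow,
    cInv_mul, one_pow]

theorem g1_natDegree : (g1 M q).natDegree = q + 1 := by
  unfold g1
  rw [← C_pow, natDegree_C_mul (pow_ne_zero _ cInv_ne_zero), comp_natDegree]

/-! ### The roots of `g1` -/

theorem g1_eval_a1 : (g1 M q).eval (a1 M q) = 0 := by
  unfold g1 a1
  rw [eval_mul, eval_comp, eval_mul, eval_C, eval_X]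
  have h1 : (jq' M q) ^ q * (jBar (M * q) * cInv M q) = jBar (M * q) := by
    rw [mul_comm (jBar (M * q)), ← mul_assoc, mul_cInv, one_mul]
  rw [h1, PhiAt_eval_jBar, mul_zero]

theorem X_sub_C_mul_psiInf : (X - C (a1 M q)) * psiInf M q = g1 M q :=
  Polynomial.mul_divByMonic_eq_iff_isRoot.2 g1_eval_a1

theorem psiInf_monic : (psiInf M q).Monic := by
  have h := g1_monic (M := M) (q := q)
  rw [← X_sub_C_mul_psiInf] at h
  exact (Polynomial.monic_X_sub_C _).of_mul_monic_left h

theorem psiInf_natDegree : (psiInf M q).natDegree = q := by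
  have h := g1_natDegree (M := M) (q := q)
  rw [← X_sub_C_mul_psiInf, (Polynomial.monic_X_sub_C _).natDegree_mul psiInf_monic,
    Polynomial.natDegree_X_sub_C] at h
  omega

/-- `Φ_q(X, j(s^q))` vanishes at `j(s^{q²})` (along `α₂`). -/
theorem PhiAt_map_alpha2_eval_jqq :
    ((PhiAt M q).map (alpha2 M q : Fb (M * q) →+* Fb (M * q * q))).eval (jqq M q) = 0 := by
  rw [← X_sub_C_mul_G, Polynomial.map_mul, eval_mul, G_map_alpha2_eval_jqq, mul_zero]

theorem thetaInf_mul : alpha2 M q ((jq' M q) ^ q) * thetaInf M q = jqq M q := by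
  unfold thetaInf
  rw [mul_comm (jqq M q), ← mul_assoc, ← map_mul, mul_cInv, map_one, one_mul]

theorem g1_map_alpha2_eval_thetaInf :
    ((g1 M q).map (alpha2 M q : Fb (M * q) →+* Fb (M * q * q))).eval (thetaInf M q) = 0 := by
  unfold g1
  rw [Polynomial.map_mul, Polynomial.map_comp, eval_mul, eval_comp, Polynomial.map_mul,
    Polynomial.map_C, Polynomial.map_X, eval_mul, eval_C, eval_X, RingHom.coe_coe, thetaInf_mul,
    PhiAt_map_alpha2_eval_jqq, mul_zero]

theorem thetaInf_notMem_range_alpha2 (hqM : ¬ q ∣ M) :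
    thetaInf M q ∉ Set.range (alpha2 M q) := by
  rintro ⟨y, hy⟩
  refine jqq_notMem_range_alpha2 hqM ⟨(jq' M q) ^ q * y, ?_⟩
  rw [map_mul, hy, thetaInf_mul]

theorem psiInf_map_alpha2_eval_thetaInf (hqM : ¬ q ∣ M) :
    ((psiInf M q).map (alpha2 M q : Fb (M * q) →+* Fb (M * q * q))).eval (thetaInf M q) = 0 := by
  have h := g1_map_alpha2_eval_thetaInf (M := M) (q := q)
  rw [← X_sub_C_mul_psiInf, Polynomial.map_mul, eval_mul, Polynomial.map_sub, Polynomial.map_X,
    Polynomial.map_C, eval_sub, eval_X, eval_C, RingHom.coe_coe] at h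
  rcases mul_eq_zero.mp h with h1 | h1
  · exfalso
    exact thetaInf_notMem_range_alpha2 hqM ⟨a1 M q, (sub_eq_zero.mp h1).symm⟩
  · exact h1

/-- **`psiInf` is the minimal polynomial of `θ∞` over `α₂ F₁`.** -/
theorem minpoly_thetaInf (hqM : ¬ q ∣ M) :
    letI := algebraAlong (alpha2 M q)
    minpoly (Fb (M * q)) (thetaInf M q) = psiInf M q :=
  (minpoly_eq_of_monic_of_root hqM (thetaInf_notMem_range_alpha2 hqM) psiInf_monic
    psiInf_natDegree (psiInf_map_alpha2_eval_thetaInf hqM)).1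

/-- **`θ∞` generates `F₂` over `α₂ F₁`.** -/
theorem adjoin_thetaInf_eq_top (hqM : ¬ q ∣ M) :
    letI := algebraAlong (alpha2 M q)
    IntermediateField.adjoin (Fb (M * q)) {thetaInf M q} = ⊤ :=
  (minpoly_eq_of_monic_of_root hqM (thetaInf_notMem_range_alpha2 hqM) psiInf_monic
    psiInf_natDegree (psiInf_map_alpha2_eval_thetaInf hqM)).2

theorem psiInf_irreducible (hqM : ¬ q ∣ M) : Irreducible (psiInf M q) := by
  letI := algebraAlong (alpha2 M q)
  haveI : Module.Finite (Fb (M * q)) (Fb (M * q * q)) :=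
    Fermat.Agent.Hecke.finiteAlong_heckeAlphaBar (M * q) q
  rw [← minpoly_thetaInf hqM]
  exact minpoly.irreducible (Algebra.IsIntegral.isIntegral _)

theorem aeval_thetaInf_psiInf (hqM : ¬ q ∣ M) :
    letI := algebraAlong (alpha2 M q)
    aeval (thetaInf M q) (psiInf M q) = 0 := by
  letI := algebraAlong (alpha2 M q)
  rw [Polynomial.aeval_def, Polynomial.eval₂_eq_eval_map]
  exact psiInf_map_alpha2_eval_thetaInf hqM

/-- every element of `F₂` is a polynomial in `θ∞` over `α₂ F₁` -/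
theorem exists_aeval_thetaInf_eq (hqM : ¬ q ∣ M) (y : Fb (M * q * q)) :
    letI := algebraAlong (alpha2 M q)
    ∃ p : (Fb (M * q))[X], aeval (thetaInf M q) p = y := by
  letI := algebraAlong (alpha2 M q)
  haveI : Module.Finite (Fb (M * q)) (Fb (M * q * q)) :=
    Fermat.Agent.Hecke.finiteAlong_heckeAlphaBar (M * q) q
  have hint : IsIntegral (Fb (M * q)) (thetaInf M q) := Algebra.IsIntegral.isIntegral _
  have hy : y ∈ IntermediateField.adjoin (Fb (M * q)) {thetaInf M q} := by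
    rw [adjoin_thetaInf_eq_top hqM]
    exact IntermediateField.mem_top
  have h1 := IntermediateField.adjoin_simple_toSubalgebra_of_isAlgebraic hint.isAlgebraic
  have hy' : y ∈ (IntermediateField.adjoin (Fb (M * q)) {thetaInf M q}).toSubalgebra := hy
  rw [h1, Algebra.adjoin_singleton_eq_range_aeval] at hy'
  exact hy'

/-! ### Polynomials with coefficients in a subring -/

section Sub

variable {F : Type*} [Field F]

/-- the value of an integral polynomial at an element of a subring -/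
theorem aeval_int_mem (S : Subring F) {x : F} (hx : x ∈ S) (p : ℤ[X]) : aeval x p ∈ S := by
  rw [aeval_eq_sum_range]
  exact S.sum_mem fun i _ => S.zsmul_mem (S.pow_mem hx i) _

theorem IsSubPoly.derivative' {S : Subring F} {p : F[X]} (hp : IsSubPoly S p) :
    IsSubPoly S (derivative p) := by
  intro n
  rw [coeff_derivative]
  refine S.mul_mem (hp _) ?_
  have : ((n : F) + 1) = ((n + 1 : ℕ) : F) := by push_cast; rfl
  rw [this]
  exact natCast_mem S _

theorem IsSubPoly.eval_mem {S : Subring F} {p : F[X]} (hp : IsSubPoly S p) {x : F} (hx : x ∈ S) :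
    p.eval x ∈ S := by
  rw [eval_eq_sum_range]
  exact S.sum_mem fun i _ => S.mul_mem (hp i) (S.pow_mem hx i)

theorem IsSubPoly.C' {S : Subring F} {a : F} (ha : a ∈ S) : IsSubPoly S (C a) := by
  intro n
  rw [coeff_C]
  split_ifs
  · exact ha
  · exact S.zero_mem

theorem IsSubPoly.X' {S : Subring F} : IsSubPoly S (X : F[X]) := by
  intro n
  rw [coeff_X]
  split_ifs
  · exact S.one_mem
  · exact S.zero_mem

end Sub

/-! ### The coefficients of `g1` lie in `ℤ[1/j(s^q)]` -/

theorem PhiAt_coeff (i : ℕ) : (PhiAt M q).coeff i = aeval (jq' M q) ((PhiZ q).coeff i) := by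
  unfold PhiAt phiK
  rw [coeff_map, coeff_map, coe_evalRingHom, coe_mapRingHom, eval_map, aeval_def]
  congr 1

theorem g1_coeff (i : ℕ) :
    (g1 M q).coeff i = cInv M q ^ (q + 1) * ((PhiAt M q).coeff i * ((jq' M q) ^ q) ^ i) := by
  unfold g1
  rw [← C_pow, Polynomial.coeff_C_mul, comp_C_mul_X_coeff]

theorem g1_coeff_mem (i : ℕ) : (g1 M q).coeff i ∈ Algebra.adjoin ℤ {(jq' M q)⁻¹} := by
  rcases Nat.lt_or_ge (q + 1) i with hi | hi
  · rw [coeff_eq_zero_of_natDegree_lt (by rw [g1_natDegree]; exact hi)]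
    exact Subalgebra.zero_mem _
  · rw [g1_coeff, PhiAt_coeff]
    obtain ⟨k, hk⟩ := Nat.exists_eq_add_of_le hi
    have h1 : cInv M q ^ (q + 1) * (aeval (jq' M q) ((PhiZ q).coeff i) * ((jq' M q) ^ q) ^ i) =
        aeval (jq' M q) ((PhiZ q).coeff i) * ((jq' M q)⁻¹) ^ (q * k) := by
      have h2 : cInv M q ^ (q + 1) * ((jq' M q) ^ q) ^ i = ((jq' M q)⁻¹) ^ (q * k) := by
        rw [hk, pow_add (cInv M q) i k, mul_assoc, mul_comm (cInv M q ^ k), ← mul_assoc,
          ← mul_pow, cInv_mul, one_pow, one_mul]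
        unfold cInv
        rw [← pow_mul]
      rw [mul_comm (aeval (jq' M q) ((PhiZ q).coeff i)), ← mul_assoc, h2]
      exact mul_comm _ _
    rw [h1]
    refine Fermat.Agent.BR.CuspSep.aeval_mul_inv_pow_mem_adjoin jq'_ne_zero _ ?_
    have h3 := Fermat.Agent.BR.PhiZDegree.natDegree_coeff_PhiZ_le hq.out i
    rw [PhiZ_natDegree q hq.out] at h3
    have h4 : q + 1 - i = k := by omega
    rwa [h4] at h3

/-- the elements of `ℤ[1/j(s^q)]` lie in `cuspRing` -/
theorem mem_cuspRing_of_mem_adjoin {y : Fb (M * q)}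
    (hy : y ∈ Algebra.adjoin ℤ {(jq' M q)⁻¹}) : y ∈ cuspRing M q := by
  rw [mem_cuspRing_iff]
  exact isIntegral_algebraMap (R := Algebra.adjoin ℤ {(jq' M q)⁻¹}) (x := ⟨y, hy⟩)

theorem g1_isSubPoly : IsSubPoly (cuspRing M q) (g1 M q) := fun i =>
  mem_cuspRing_of_mem_adjoin (g1_coeff_mem i)

/-- `a1 = j / j(s^q)^q` is integral over `ℤ[1/j(s^q)]`: it is a root of `g1`. -/
theorem a1_mem_cuspRing : a1 M q ∈ cuspRing M q := by
  rw [mem_cuspRing_iff]
  have hlifts : g1 M q ∈ Polynomial.lifts (algebraMap (Algebra.adjoin ℤ {(jq' M q)⁻¹})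
      (Fb (M * q))) :=
    (Polynomial.lifts_iff_coeff_lifts _).mpr fun i => ⟨⟨(g1 M q).coeff i, g1_coeff_mem i⟩, rfl⟩
  obtain ⟨g', hg'g, -, hg'm⟩ := Polynomial.lifts_and_natDegree_eq_and_monic hlifts g1_monic
  refine ⟨g', hg'm, ?_⟩
  rw [Polynomial.eval₂_eq_eval_map, hg'g, g1_eval_a1]

theorem inv_jq'_mem_cuspRing : (jq' M q)⁻¹ ∈ cuspRing M q :=
  mem_cuspRing_of_mem_adjoin (Algebra.self_mem_adjoin_singleton ℤ _)

/-- **the coefficients of `psiInf` lie in `cuspRing`** -/
theorem psiInf_isSubPoly : IsSubPoly (cuspRing M q) (psiInf M q) := by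
  have h1 : IsSubPoly (cuspRing M q) (X - C (a1 M q)) :=
    IsSubPoly.sub IsSubPoly.X' (IsSubPoly.C' a1_mem_cuspRing)
  exact (IsSubPoly.divByMonic_modByMonic g1_isSubPoly h1 (monic_X_sub_C _)).1

theorem psiInf_coeff_mem (n : ℕ) : (psiInf M q).coeff n ∈ cuspRing M q := psiInf_isSubPoly n

/-! ### Kronecker's congruence for `g1` -/

variable (M q) in
/-- `Ψ_q(X, j(s^q)) ∈ F₁[X]` -/
def PsiAt : (Fb (M * q))[X] := (psiK q (Fb (M * q))).map (Polynomial.evalRingHom (jq' M q))

theorem PsiAt_coeff (i : ℕ) : (PsiAt M q).coeff i = aeval (jq' M q) ((PsiZ q).coeff i) := by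
  unfold PsiAt psiK
  rw [coeff_map, coeff_map, coe_evalRingHom, coe_mapRingHom, eval_map, aeval_def]
  congr 1

theorem PsiAt_isSubPoly (S : Subring (Fb (M * q))) (h : jq' M q ∈ S) : IsSubPoly S (PsiAt M q) :=
  fun i => by
    rw [PsiAt_coeff]
    exact aeval_int_mem S h _

/-- Kronecker's congruence: `Φ_q(X, j') = (X^q - j')(X - j'^q) + q Ψ_q(X, j')`. -/
theorem PhiAt_eq_kron :
    PhiAt M q = (X ^ q - C (jq' M q)) * (X - C ((jq' M q) ^ q)) +
      C ((q : ℕ) : Fb (M * q)) * PsiAt M q := by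
  unfold PhiAt PsiAt
  rw [phiK_eq q hq.out]
  simp only [Polynomial.map_add, Polynomial.map_mul, Polynomial.map_sub, Polynomial.map_pow,
    Polynomial.map_X, Polynomial.map_C, coe_evalRingHom, eval_X, eval_pow, eval_C]

/-- the derivative of `Φ_q(X, j')` at `X = j'^q`. -/
theorem derivative_PhiAt_eval :
    (derivative (PhiAt M q)).eval ((jq' M q) ^ q) =
      ((jq' M q) ^ q) ^ q - jq' M q +
        ((q : ℕ) : Fb (M * q)) * (derivative (PsiAt M q)).eval ((jq' M q) ^ q) := by
  rw [PhiAt_eq_kron]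
  simp only [derivative_add, derivative_mul, derivative_sub, derivative_X_pow, derivative_C,
    derivative_X, sub_zero, eval_add, eval_mul, eval_sub, eval_pow, eval_X, eval_C, sub_self,
    mul_zero, zero_mul, zero_add, mul_one]

/-- **Kronecker at `X = 1`**: `g1'(1) = 1 - j'^{1-q²} + q · e`. -/
theorem derivative_g1_eval_one :
    (derivative (g1 M q)).eval 1 =
      1 - jq' M q * cInv M q ^ q +
        ((q : ℕ) : Fb (M * q)) *
          (cInv M q ^ q * (derivative (PsiAt M q)).eval ((jq' M q) ^ q)) := by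
  unfold g1
  rw [← C_pow, derivative_C_mul, derivative_comp, derivative_mul, derivative_C, zero_mul, zero_add,
    derivative_X, mul_one, eval_mul, eval_mul, eval_comp, eval_C, eval_C, eval_mul, eval_C, eval_X,
    mul_one, derivative_PhiAt_eval]
  have h1 := cInv_mul (M := M) (q := q)
  have h2 : cInv M q ^ (q + 1) * (jq' M q ^ q) = cInv M q ^ q := by
    rw [pow_succ, mul_assoc, h1, mul_one]
  have h3 : cInv M q ^ q * (jq' M q ^ q) ^ q = 1 := by
    rw [← mul_pow, h1, one_pow]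
  linear_combination ((jq' M q ^ q) ^ q - jq' M q +
    ((q : ℕ) : Fb (M * q)) * (derivative (PsiAt M q)).eval ((jq' M q) ^ q)) * h2 + h3

end Fermat.Agent.BR3.CuspSheet
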